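/-
S16 theta sub-DAG, task Theta-10 (helper120): coset representatives of `Γ₀(p)` in `SL(2,ℤ)`.
-/
import Mathlib

set_option autoImplicit false

namespace Fermat.Agent.S16.Theta

open scoped MatrixGroups

variable {p : ℕ}

/-- coset representatives -/
theorem exists_Gamma0_mul_S_T [Fact p.Prime] (γ : SL(2, ℤ)) (hγ : γ ∉ CongruenceSubgroup.Gamma0 p) :
    ∃ γ₀ ∈ CongruenceSubgroup.Gamma0 p, ∃ j : ℤ, γ = γ₀ * ModularGroup.S * ModularGroup.T ^ j := by
  rw [CongruenceSubgroup.Gamma0_mem] at hγ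
  set c : ZMod p := ((γ 1 0 : ℤ) : ZMod p) with hc
  set d : ZMod p := ((γ 1 1 : ℤ) : ZMod p) with hd
  obtain ⟨j, hj⟩ := ZMod.intCast_surjective (d * c⁻¹)
  refine ⟨γ * (ModularGroup.T ^ j)⁻¹ * ModularGroup.S⁻¹, ?_, j, by group⟩
  rw [CongruenceSubgroup.Gamma0_mem, ← zpow_neg]
  have h1 : (γ * ModularGroup.T ^ (-j) * ModularGroup.S⁻¹) 1 0 = -(γ 1 1 - j * γ 1 0) := by
    rw [Matrix.SpecialLinearGroup.coe_mul, Matrix.SpecialLinearGroup.coe_mul,
      ModularGroup.coe_T_zpow, Matrix.SpecialLinearGroup.SL2_inv_expl]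
    rw [Matrix.mul_apply, Fin.sum_univ_two, Matrix.mul_apply, Matrix.mul_apply, Fin.sum_univ_two,
      Fin.sum_univ_two]
    simp [ModularGroup.S]
    ring
  rw [h1]
  push_cast
  rw [hj, ← hc, ← hd, mul_assoc, inv_mul_cancel₀ hγ, mul_one, sub_self, neg_zero]

end Fermat.Agent.S16.Theta
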