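import Fermat.Agent.S16.Theta.Defs

/-!
# S16, theta part: existence of lattice data

For every odd prime `p` there are integers `μ, s > 0` and `t` with `(4 μ - 1) s - t ^ 2 = p` and
`-(4 μ - 1)` a non-square modulo `p`.  We take `4 μ - 1 = r` a prime given by Dirichlet's theorem
(`r = 3 mod 4`, `-r` a non-residue modulo `p`); quadratic reciprocity shows that `-p` is a square
modulo `r`.
-/

namespace Fermat.Agent.S16.Theta

namespace Exists

/-- A prime `r = 3 mod 4`, different from `p`, with `-r` a non-square modulo `p`. -/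
lemma exists_prime (p : ℕ) [Fact p.Prime] (hp2 : p ≠ 2) :
    ∃ r : ℕ, r.Prime ∧ r % 4 = 3 ∧ r ≠ p ∧ ¬ IsSquare (-(r : ZMod p)) := by
  have hp : p.Prime := Fact.out
  have hchar : ringChar (ZMod p) ≠ 2 := by
    rw [ZMod.ringChar_zmod_n]; exact hp2
  obtain ⟨c₀, hc₀⟩ := FiniteField.exists_nonsquare hchar
  have hc₀ne : c₀ ≠ 0 := by
    rintro rfl
    exact hc₀ ⟨0, by simp⟩
  have hodd : Odd p := hp.odd_of_ne_two hp2
  have hcop : Nat.Coprime 4 p := by
    have : Nat.Coprime 2 p := (Nat.coprime_primes Nat.prime_two hp).mpr (Ne.symm hp2)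
    simpa using Nat.Coprime.pow_left 2 this
  obtain ⟨a, ha4, hap⟩ := Nat.chineseRemainder hcop 3 (-c₀).val
  have hap' : (a : ZMod p) = -c₀ := by
    have := (ZMod.natCast_eq_natCast_iff a (-c₀).val p).mpr hap
    rw [this, ZMod.natCast_zmod_val]
  have ha4' : a % 4 = 3 := by
    have := ha4
    unfold Nat.ModEq at this
    simpa using this
  have hacop : Nat.Coprime a (4 * p) := by
    apply Nat.Coprime.mul_right
    · have h2 : Nat.Coprime a 2 := by
        rw [Nat.coprime_comm, Nat.Prime.coprime_iff_not_dvd Nat.prime_two]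
        omega
      simpa using Nat.Coprime.pow_right 2 h2
    · rw [Nat.coprime_comm, hp.coprime_iff_not_dvd]
      intro hdvd
      have : (a : ZMod p) = 0 := (ZMod.natCast_eq_zero_iff a p).mpr hdvd
      rw [hap'] at this
      exact hc₀ne (neg_eq_zero.mp this)
  have : NeZero (4 * p) := ⟨by have := hp.pos; omega⟩
  have hunit : IsUnit (a : ZMod (4 * p)) := (ZMod.isUnit_iff_coprime a (4 * p)).mpr hacop
  obtain ⟨r, hrgt, hrp, hra⟩ := Nat.forall_exists_prime_gt_and_eq_mod hunit p
  have hmod : r ≡ a [MOD 4 * p] := (ZMod.natCast_eq_natCast_iff r a (4 * p)).mp hra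
  refine ⟨r, hrp, ?_, by omega, ?_⟩
  · have h4 : r ≡ a [MOD 4] := hmod.of_mul_right p
    unfold Nat.ModEq at h4
    omega
  · have hpm : r ≡ a [MOD p] := hmod.of_mul_left 4
    have : (r : ZMod p) = -c₀ := by
      rw [(ZMod.natCast_eq_natCast_iff r a p).mpr hpm, hap']
    rw [this, neg_neg]
    exact hc₀

/-- Reciprocity step: `-p` is a square modulo `r`. -/
lemma isSquare_neg (p r : ℕ) [Fact p.Prime] [Fact r.Prime] (hp2 : p ≠ 2) (hr4 : r % 4 = 3)
    (hrp : r ≠ p) (hns : ¬ IsSquare (-(r : ZMod p))) : IsSquare (-(p : ZMod r)) := by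
  have hp : p.Prime := Fact.out
  have hr : r.Prime := Fact.out
  have hr2 : r ≠ 2 := by rintro rfl; omega
  -- Legendre symbol of `-r` at `p`
  have hrne : ((-(r : ℤ) : ℤ) : ZMod p) ≠ 0 := by
    intro h
    apply hns
    have : -(r : ZMod p) = 0 := by simpa using h
    rw [this]
    exact ⟨0, by simp⟩
  have h1 : legendreSym p (-(r : ℤ)) = -1 := by
    rw [legendreSym.eq_neg_one_iff]
    simpa using hns
  have hpne : ((-(p : ℤ) : ℤ) : ZMod r) ≠ 0 := by
    intro h
    have h' : (p : ZMod r) = 0 := by simpa using h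
    have hdvd : r ∣ p := (ZMod.natCast_eq_zero_iff p r).mp h'
    exact hrp ((Nat.prime_dvd_prime_iff_eq hr hp).mp hdvd)
  have key : legendreSym r (-(p : ℤ)) = 1 := by
    have e1 : legendreSym p (-(r : ℤ)) = legendreSym p (-1) * legendreSym p r := by
      rw [← legendreSym.mul]; congr 1; ring
    have e2 : legendreSym r (-(p : ℤ)) = legendreSym r (-1) * legendreSym r p := by
      rw [← legendreSym.mul]; congr 1; ring
    have hχr : legendreSym r (-1) = -1 := by
      rw [legendreSym.at_neg_one hr2, ZMod.χ₄_nat_three_mod_four hr4]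
    rcases hp.eq_two_or_odd with h | h
    · exact absurd h hp2
    · have hp4 : p % 4 = 1 ∨ p % 4 = 3 := by omega
      rcases hp4 with hp4 | hp4
      · have hχp : legendreSym p (-1) = 1 := by
          rw [legendreSym.at_neg_one hp2, ZMod.χ₄_nat_one_mod_four hp4]
        have hqr : legendreSym r p = legendreSym p r :=
          legendreSym.quadratic_reciprocity_one_mod_four hp4 hr2
        rw [e2, hχr, hqr]
        rw [e1, hχp, one_mul] at h1
        rw [h1]; norm_num
      · have hχp : legendreSym p (-1) = -1 := by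
          rw [legendreSym.at_neg_one hp2, ZMod.χ₄_nat_three_mod_four hp4]
        have hqr : legendreSym r p = -legendreSym p r :=
          legendreSym.quadratic_reciprocity_three_mod_four hp4 hr4
        rw [e2, hχr, hqr]
        rw [e1, hχp] at h1
        have : legendreSym p r = 1 := by linarith
        rw [this]; norm_num
  have := (legendreSym.eq_one_iff r hpne).mp key
  simpa using this

end Exists

theorem exists_data {p : ℕ} [Fact p.Prime] (hp2 : p ≠ 2) : Nonempty (Data p) := by
  have hp : p.Prime := Fact.out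
  obtain ⟨r, hr, hr4, hrp, hns⟩ := Exists.exists_prime p hp2
  have : Fact r.Prime := ⟨hr⟩
  obtain ⟨y, hy⟩ := Exists.isSquare_neg p r hp2 hr4 hrp hns
  -- `r ∣ y.val ^ 2 + p`
  have hdvd : (r : ℤ) ∣ (y.val : ℤ) ^ 2 + p := by
    rw [← ZMod.intCast_zmod_eq_zero_iff_dvd]
    push_cast
    rw [ZMod.natCast_zmod_val, pow_two, ← hy]
    ring
  obtain ⟨s, hs⟩ := hdvd
  have hrpos : (0 : ℤ) < r := by exact_mod_cast hr.pos
  have hppos : (0 : ℤ) < p := by exact_mod_cast hp.pos
  have hspos : 0 < s := by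
    have h : 0 < (r : ℤ) * s := by
      rw [← hs]; positivity
    exact (pos_iff_pos_of_mul_pos h).mp hrpos
  obtain ⟨μ, hμ⟩ : ∃ μ : ℕ, r = 4 * μ + 3 := ⟨r / 4, by omega⟩
  have hr' : (4 * ((μ : ℤ) + 1) - 1) = r := by
    rw [hμ]; push_cast; ring
  refine ⟨⟨(μ : ℤ) + 1, s, y.val, by positivity, hspos, ?_, ?_⟩⟩
  · rw [hr']; linarith
  · rw [hr']
    simpa using hns

end Fermat.Agent.S16.Theta
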