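import Mathlib

/-!
# S16-Theta-09: `Γ₀(p)` is generated by `T`, `-1` and the matrices with lower left entry `p`
-/

set_option autoImplicit false

namespace Fermat.Agent.S16.Theta

open scoped MatrixGroups

namespace Gen

theorem det_eq (γ : SL(2, ℤ)) : γ 0 0 * γ 1 1 - γ 0 1 * γ 1 0 = 1 := by
  have := γ.det_coe
  rw [Matrix.det_fin_two] at this
  exact this

/-- the case `c = 0` -/
theorem mem_of_c_eq_zero (H : Subgroup SL(2, ℤ)) (hT : ModularGroup.T ∈ H) (hneg : -1 ∈ H)
    (γ : SL(2, ℤ)) (hc : γ 1 0 = 0) : γ ∈ H := by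
  have hdet := det_eq γ
  rw [hc, mul_zero, sub_zero] at hdet
  rcases Int.mul_eq_one_iff_eq_one_or_neg_one.1 hdet with ⟨ha, hd⟩ | ⟨ha, hd⟩
  · have : γ = ModularGroup.T ^ (γ 0 1) := by
      ext i j
      rw [ModularGroup.coe_T_zpow]
      fin_cases i <;> fin_cases j <;> simp [ha, hd, hc]
    rw [this]
    exact H.zpow_mem hT _
  · have : γ = -1 * ModularGroup.T ^ (-(γ 0 1)) := by
      ext i j
      rw [neg_one_mul, Matrix.SpecialLinearGroup.coe_neg, ModularGroup.coe_T_zpow]
      fin_cases i <;> fin_cases j <;> simp [ha, hd, hc]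
    rw [this]
    exact H.mul_mem hneg (H.zpow_mem hT _)

/-- choice of `α` -/
theorem exists_alpha {p : ℕ} (hp : p.Prime) (m d : ℤ) (hm : m ≠ 0)
    (hpd : IsCoprime (p : ℤ) d) :
    ∃ α : ℤ, IsCoprime α (p : ℤ) ∧ |m * α + d| < |m| := by
  have hpZ : Prime (p : ℤ) := Nat.prime_iff_prime_int.1 hp
  have hcop : ∀ x : ℤ, ¬ (p : ℤ) ∣ x → IsCoprime x (p : ℤ) := fun x hx =>
    ((hpZ.coprime_iff_not_dvd).2 hx).symm
  have hr0 : 0 ≤ d % m := Int.emod_nonneg d hm
  have hr1 : d % m < |m| := Int.emod_lt_abs d hm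
  have hdm : m * (d / m) + d % m = d := Int.mul_ediv_add_emod d m
  by_cases h1 : (p : ℤ) ∣ d / m
  · -- use a neighbour
    have hr : d % m ≠ 0 := by
      intro h0
      rw [h0, add_zero] at hdm
      have : (p : ℤ) ∣ d := hdm ▸ Dvd.dvd.mul_left h1 m
      exact hpZ.not_isUnit (hpd.isUnit_of_dvd' dvd_rfl this)
    have hp2 : ¬ (p : ℤ) ∣ 1 := fun h => hpZ.not_isUnit (isUnit_of_dvd_one h)
    rcases lt_or_gt_of_ne hm with hneg | hpos
    · refine ⟨-(d / m) + 1, hcop _ ?_, ?_⟩
      · intro h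
        apply hp2
        have := dvd_add h h1
        simpa using this
      · have : m * (-(d / m) + 1) + d = d % m + m := by linarith
        rw [this, abs_of_neg hneg] at *
        rw [abs_lt]
        constructor <;> omega
    · refine ⟨-(d / m) - 1, hcop _ ?_, ?_⟩
      · intro h
        apply hp2
        have := dvd_add h h1
        have h3 : -(d / m) - 1 + d / m = -1 := by ring
        rw [h3] at this
        exact (dvd_neg.1 this)
      · have : m * (-(d / m) - 1) + d = d % m - m := by linarith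
        rw [this, abs_of_pos hpos] at *
        rw [abs_lt]
        constructor <;> omega
  · refine ⟨-(d / m), hcop _ (by rwa [dvd_neg]), ?_⟩
    have : m * (-(d / m)) + d = d % m := by linarith
    rw [this, abs_of_nonneg hr0]
    exact hr1

end Gen

variable {p : ℕ}

theorem Gamma0_le_of_mem [Fact p.Prime] (H : Subgroup SL(2, ℤ)) (hT : ModularGroup.T ∈ H)
    (hneg : -1 ∈ H) (hH : ∀ γ : SL(2, ℤ), γ 1 0 = p → γ ∈ H) :
    CongruenceSubgroup.Gamma0 p ≤ H := by
  have hp : p.Prime := Fact.out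
  have key : ∀ n : ℕ, ∀ γ : SL(2, ℤ), (p : ℤ) ∣ γ 1 0 → (γ 1 0).natAbs = n → γ ∈ H := by
    intro n
    induction n using Nat.strong_induction_on with
    | _ n ih =>
      intro γ hdvd hn
      obtain ⟨m, hm⟩ := hdvd
      have hdet := Gen.det_eq γ
      by_cases hm0 : m = 0
      · exact Gen.mem_of_c_eq_zero H hT hneg γ (by rw [hm, hm0, mul_zero])
      · have hpd : IsCoprime (p : ℤ) (γ 1 1) :=
          ⟨-(γ 0 1) * m, γ 0 0, by rw [hm] at hdet; linarith⟩
        obtain ⟨α, ⟨u, v, huv⟩, hα⟩ := Gen.exists_alpha hp m (γ 1 1) hm0 hpd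
        let δ : SL(2, ℤ) := ⟨!![α, -v; (p : ℤ), u], by
          rw [Matrix.det_fin_two_of]; linarith⟩
        have hδ : δ ∈ H := hH δ (by simp [δ])
        have hc : (γ * δ) 1 0 = p * (m * α + γ 1 1) := by
          rw [Matrix.SpecialLinearGroup.coe_mul, Matrix.mul_apply, Fin.sum_univ_two]
          simp only [δ, hm]
          simp
          ring
        have hlt : ((γ * δ) 1 0).natAbs < n := by
          rw [← hn, hc, hm, Int.natAbs_mul, Int.natAbs_mul]
          apply Nat.mul_lt_mul_of_pos_left _ (by simpa using hp.pos)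
          zify
          exact hα
        have hγδ : γ * δ ∈ H := ih _ hlt (γ * δ) ⟨_, hc⟩ rfl
        have : γ = (γ * δ) * δ⁻¹ := by group
        rw [this]
        exact H.mul_mem hγδ (H.inv_mem hδ)
  intro γ hγ
  rw [CongruenceSubgroup.Gamma0_mem] at hγ
  exact key _ γ ((ZMod.intCast_zmod_eq_zero_iff_dvd _ p).1 hγ) rfl

end Fermat.Agent.S16.Theta
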