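import Fermat.Agent.S16.Theta.Defs

/-!
# S16, theta part: positivity of the quaternary form and of its rescaled dual
-/

namespace Fermat.Agent.S16.Theta

variable {p : ℕ}

theorem q_pos (D : Data p) (hp : 0 < p) (x : Fin 4 → ℤ) (hx : x ≠ 0) : 0 < D.q x := by
  have hr : 0 < 4 * D.μ - 1 := by have := D.μ_pos; omega
  have hp' : (0 : ℤ) < (p : ℤ) := by exact_mod_cast hp
  have key := four_r_mul_Q D.μ D.s D.t x
  rw [D.det_eq] at key
  by_contra hneg
  have hle : Q D.μ D.s D.t x ≤ 0 := not_lt.mp hneg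
  set r := 4 * D.μ - 1 with hrdef
  set a := 2 * x 0 + x 1 + D.t * x 3 with ha
  set b := r * x 1 - D.t * (2 * x 2 + x 3) with hb
  set c := 2 * x 2 + x 3 with hc
  have h1 : 4 * r * Q D.μ D.s D.t x ≤ 0 := by nlinarith
  have t1 : 0 ≤ r * a ^ 2 := by positivity
  have t2 : 0 ≤ b ^ 2 := by positivity
  have t3 : 0 ≤ (p : ℤ) * c ^ 2 := by positivity
  have t4 : 0 ≤ (p : ℤ) * (r * x 3 ^ 2) := by positivity
  have e1 : r * a ^ 2 = 0 := by nlinarith
  have e2 : b ^ 2 = 0 := by nlinarith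
  have e3 : (p : ℤ) * c ^ 2 = 0 := by nlinarith
  have e4 : (p : ℤ) * (r * x 3 ^ 2) = 0 := by nlinarith
  have x3 : x 3 = 0 := by
    have := (mul_eq_zero.mp e4).resolve_left hp'.ne'
    have := (mul_eq_zero.mp this).resolve_left hr.ne'
    exact pow_eq_zero_iff (two_ne_zero) |>.mp this
  have c0 : c = 0 := by
    have := (mul_eq_zero.mp e3).resolve_left hp'.ne'
    exact pow_eq_zero_iff (two_ne_zero) |>.mp this
  have x2 : x 2 = 0 := by rw [hc, x3] at c0; omega
  have b0 : b = 0 := pow_eq_zero_iff (two_ne_zero) |>.mp e2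
  have x1 : x 1 = 0 := by
    rw [hb, c0] at b0
    simp only [mul_zero, sub_zero] at b0
    exact (mul_eq_zero.mp b0).resolve_left hr.ne'
  have a0 : a = 0 := by
    have := (mul_eq_zero.mp e1).resolve_left hr.ne'
    exact pow_eq_zero_iff (two_ne_zero) |>.mp this
  have x0 : x 0 = 0 := by
    rw [ha, x1, x3] at a0
    simp only [mul_zero, add_zero] at a0
    omega
  apply hx
  funext i
  fin_cases i
  · exact x0
  · exact x1
  · exact x2
  · exact x3

theorem qd_pos (D : Data p) (hp : 0 < p) (x : Fin 4 → ℤ) (hx : x ≠ 0) : 0 < D.qd x := by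
  have hp' : (0 : ℤ) < (p : ℤ) := by exact_mod_cast hp
  have hne : Bd D.μ D.s D.t x ≠ 0 := by
    intro h0
    have h := B_Bd D.μ D.s D.t x
    rw [h0, D.det_eq] at h
    have hB0 : B D.μ D.s D.t (0 : Fin 4 → ℤ) = 0 := by
      have := B_smul D.μ D.s D.t (0 : Fin 4 → ℤ) 0
      simpa using this
    rw [hB0] at h
    apply hx
    funext i
    have hi := congrFun h i
    simp only [Pi.zero_apply, Pi.smul_apply, smul_eq_mul] at hi
    exact (mul_eq_zero.mp hi.symm).resolve_left hp'.ne'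
  have h1 := q_pos D hp _ hne
  have h2 := Q_Bd D.μ D.s D.t x
  rw [D.det_eq] at h2
  have h3 : 0 < (p : ℤ) * Qd D.μ D.s D.t x := by
    rw [← h2]
    exact h1
  exact (pos_iff_pos_of_mul_pos h3).mp hp'

end Fermat.Agent.S16.Theta
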