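import Fermat.Agent.S16.Theta.PoissonQ
import Fermat.Agent.S16.Theta.Positive

/-!
# S16, theta part: holomorphy of the theta series (task S16-Theta-11, helper82)
-/

namespace Fermat.Agent.S16.Theta

open Complex Real
open UpperHalfPlane hiding I
open scoped MatrixGroups ModularForm Manifold

variable {p : ℕ}

namespace Holo

/-- norm of one term of the theta series. -/
theorem norm_term (n : ℤ) (z : ℂ) :
    ‖cexp (2 * π * I * (n : ℂ) * z)‖ = Real.exp (-(2 * π * z.im) * (n : ℝ)) := by
  rw [Complex.norm_exp]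
  congr 1
  simp
  ring

/-- Holomorphy from summability of the Gaussian bounds and non-negativity of the form. -/
theorem differentiableOn_thetaC_of (D : Data p)
    (hsum : ∀ a : ℝ, 0 < a → Summable fun x : Fin 4 → ℤ => Real.exp (-a * (D.q x : ℝ)))
    (hnn : ∀ x : Fin 4 → ℤ, 0 ≤ D.q x) :
    DifferentiableOn ℂ (thetaC D) {z : ℂ | 0 < z.im} := by
  intro z₀ hz₀
  have hz₀' : 0 < z₀.im := hz₀
  set δ : ℝ := z₀.im / 2 with hδ
  have hδ0 : 0 < δ := by positivity
  have hU : IsOpen {z : ℂ | δ < z.im} := isOpen_lt continuous_const Complex.continuous_im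
  have hmem : z₀ ∈ {z : ℂ | δ < z.im} := by
    show δ < z₀.im
    rw [hδ]; linarith
  have key : DifferentiableOn ℂ
      (fun w : ℂ => ∑' x : Fin 4 → ℤ, cexp (2 * π * I * (D.q x : ℂ) * w)) {z : ℂ | δ < z.im} := by
    refine differentiableOn_tsum_of_summable_norm (hsum (2 * π * δ) (by positivity))
      (fun x => ?_) hU (fun x w hw => ?_)
    · fun_prop
    · rw [norm_term]
      apply Real.exp_le_exp.mpr
      have h1 : (0 : ℝ) ≤ (D.q x : ℝ) := by exact_mod_cast hnn x
      have h2 : δ < w.im := hw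
      have h3 : 2 * π * δ ≤ 2 * π * w.im := by
        have := Real.pi_pos
        nlinarith
      nlinarith
  exact ((key z₀ hmem).differentiableAt (hU.mem_nhds hmem)).differentiableWithinAt

theorem mdifferentiable_theta_of (D : Data p)
    (hsum : ∀ a : ℝ, 0 < a → Summable fun x : Fin 4 → ℤ => Real.exp (-a * (D.q x : ℝ)))
    (hnn : ∀ x : Fin 4 → ℤ, 0 ≤ D.q x) :
    MDifferentiable 𝓘(ℂ) 𝓘(ℂ) (theta D) := by
  rw [UpperHalfPlane.mdifferentiable_iff]
  refine (differentiableOn_thetaC_of D hsum hnn).congr fun z hz => ?_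
  have hz' : 0 < z.im := hz
  simp [theta, Function.comp_apply, UpperHalfPlane.ofComplex_apply_of_im_pos hz']

end Holo

theorem mdifferentiable_theta (D : Data p) (hp : 0 < p) :
    MDifferentiable 𝓘(ℂ) 𝓘(ℂ) (theta D) := by
  refine Holo.mdifferentiable_theta_of D (fun a ha => ?_) (fun x => ?_)
  · have h := summable_exp_qR D hp ha 0
    simpa [D.qR_intCast] using h
  · by_cases hx : x = 0
    · subst hx
      simp [Data.q]
    · exact (q_pos D hp x hx).le

end Fermat.Agent.S16.Theta
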