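import Fermat.Agent.S16.Theta.Poisson

/-!
# S16, theta part: Poisson summation for the explicit quaternary form
-/

namespace Fermat.Agent.S16.Theta

open Complex Real

variable {p : ℕ}

theorem gaussPair_q (D : Data p) (hp : 0 < p) :
    GaussPair 4 D.qR (fun ξ => 4 / (p : ℝ) * D.qdR ξ) ((p : ℝ) ^ 2 / 16) := by
  have hp' : (0 : ℝ) < p := by exact_mod_cast hp
  obtain ⟨r, hr⟩ : ∃ r : ℝ, r = 4 * (D.μ : ℝ) - 1 := ⟨_, rfl⟩
  have hμ : (D.μ : ℝ) = (r + 1) / 4 := by rw [hr]; ring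
  have hr0 : 0 < r := by
    have : (1 : ℝ) ≤ D.μ := by exact_mod_cast D.μ_pos
    rw [hr]; linarith
  have hdet : (p : ℝ) = r * D.s - (D.t : ℝ) ^ 2 := by rw [hr]; exact D.det_eq_real.symm
  have hs : (D.s : ℝ) = ((p : ℝ) + (D.t : ℝ) ^ 2) / r := by
    rw [hdet]; field_simp; ring
  have h := GaussPair.succ 1 one_pos ![1 / 2, 0, (D.t : ℝ) / 2]
    (GaussPair.succ (r / 4) (by positivity) ![-2 * (D.t : ℝ) / r, -(D.t : ℝ) / r]
      (GaussPair.succ ((p : ℝ) / r) (by positivity) ![1 / 2]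
        (GaussPair.succ ((p : ℝ) / 4) (by positivity) ![] GaussPair.zero)))
  convert h using 1
  · funext x
    simp [Data.qR, Q, Fin.sum_univ_succ, hμ, hs]
    field_simp
    ring
  · funext c
    simp [Data.qdR, Qd, hμ, hs]
    field_simp
    ring
  · field_simp
    norm_num

theorem summable_exp_qR (D : Data p) (hp : 0 < p) {a : ℝ} (ha : 0 < a) (v : Fin 4 → ℝ) :
    Summable fun x : Fin 4 → ℤ => Real.exp (-a * D.qR (fun i => (x i : ℝ) + v i)) :=
  (gaussPair_q D hp).summable ha v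

theorem summable_exp_qdR (D : Data p) (hp : 0 < p) {a : ℝ} (ha : 0 < a) (v : Fin 4 → ℝ) :
    Summable fun x : Fin 4 → ℤ => Real.exp (-a * D.qdR (fun i => (x i : ℝ) + v i)) := by
  have hp' : (0 : ℝ) < p := by exact_mod_cast hp
  have h := (gaussPair_q D hp).summable_dual (a := a * p / 4) (by positivity) v
  refine h.congr fun x => ?_
  congr 1
  field_simp

theorem theta_inversion (D : Data p) (hp : 0 < p) (τ : ℂ) (hτ : 0 < τ.im) (v : Fin 4 → ℝ) :
    ∑' y : Fin 4 → ℤ, cexp (-2 * π * I * (D.qR (fun i => (y i : ℝ) + v i) : ℝ) / τ) =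
      -τ ^ 2 / p * ∑' ξ : Fin 4 → ℤ,
        cexp (2 * π * I * (D.qd ξ : ℂ) * τ / p - 2 * π * I * ∑ i, (ξ i : ℂ) * (v i : ℂ)) := by
  have hp' : (0 : ℝ) < p := by exact_mod_cast hp
  have hpC : (p : ℂ) ≠ 0 := by exact_mod_cast hp.ne'
  have hτ0 : τ ≠ 0 := by
    rintro rfl
    simp at hτ
  have ha : 0 < (2 * I / τ).re := by
    rw [Complex.div_re]
    simp
    have : 0 < Complex.normSq τ := Complex.normSq_pos.mpr hτ0
    positivity
  have ha0 : (2 * I / τ) ≠ 0 := by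
    intro h
    rw [h] at ha
    simp at ha
  have h := (gaussPair_q D hp).poisson ha v 0
  have hL : ∀ y : Fin 4 → ℤ, cexp (-2 * π * I * (D.qR (fun i => (y i : ℝ) + v i) : ℝ) / τ) =
      cexp (-π * (2 * I / τ) * (D.qR (fun i => (y i : ℝ) + v i) : ℝ)
        + 2 * π * I * ∑ i, (((0 : Fin 4 → ℝ) i : ℝ) : ℂ) * ((y i : ℂ) + (v i : ℂ))) := by
    intro y
    congr 1
    simp
    ring
  have hR : ∀ ξ : Fin 4 → ℤ,
      cexp (2 * π * I * (D.qd ξ : ℂ) * τ / p - 2 * π * I * ∑ i, (ξ i : ℂ) * (v i : ℂ)) =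
      cexp (-π / (2 * I / τ) * ((4 / (p : ℝ) * D.qdR (fun i => (ξ i : ℝ) + (0 : Fin 4 → ℝ) i) : ℝ) : ℂ)
          - 2 * π * I * ∑ i, (ξ i : ℂ) * (v i : ℂ)) := by
    intro ξ
    congr 2
    have : D.qdR (fun i => (ξ i : ℝ) + (0 : Fin 4 → ℝ) i) = (D.qd ξ : ℝ) := by
      simpa using D.qdR_intCast ξ
    rw [this]
    push_cast
    field_simp
    ring_nf
    simp
  have hfac : (1 / (2 * I / τ) ^ (1 / 2 : ℂ)) ^ 4 / ((√((p : ℝ) ^ 2 / 16) : ℝ) : ℂ) = -τ ^ 2 / p := by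
    have h1 : ((2 * I / τ) ^ (1 / 2 : ℂ)) ^ 2 = 2 * I / τ := by
      rw [← Complex.cpow_nat_mul]
      simp
    have h2 : √((p : ℝ) ^ 2 / 16) = p / 4 := by
      rw [show (p : ℝ) ^ 2 / 16 = (p / 4) ^ 2 by ring]
      exact Real.sqrt_sq (by positivity)
    rw [h2, one_div, inv_pow, show (4 : ℕ) = 2 * 2 by norm_num, pow_mul, h1]
    push_cast
    field_simp
    ring_nf
    simp
  simp_rw [hL, hR]
  rw [h, hfac]

theorem summable_theta_term (D : Data p) (hp : 0 < p) (z : ℂ) (hz : 0 < z.im) :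
    Summable fun x : Fin 4 → ℤ => cexp (2 * π * I * (D.q x : ℂ) * z) := by
  refine Summable.of_norm ?_
  have h := summable_exp_qR D hp (a := 2 * π * z.im) (by positivity) 0
  refine h.congr fun x => ?_
  rw [Complex.norm_exp]
  congr 1
  have : D.qR (fun i => (x i : ℝ) + (0 : Fin 4 → ℝ) i) = (D.q x : ℝ) := by
    simpa using D.qR_intCast x
  rw [this]
  simp
  ring

theorem summable_thetaDual_term (D : Data p) (hp : 0 < p) (z : ℂ) (hz : 0 < z.im) :
    Summable fun x : Fin 4 → ℤ => cexp (2 * π * I * (D.qd x : ℂ) * z) := by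
  refine Summable.of_norm ?_
  have h := summable_exp_qdR D hp (a := 2 * π * z.im) (by positivity) 0
  refine h.congr fun x => ?_
  rw [Complex.norm_exp]
  congr 1
  have : D.qdR (fun i => (x i : ℝ) + (0 : Fin 4 → ℝ) i) = (D.qd x : ℝ) := by
    simpa using D.qdR_intCast x
  rw [this]
  simp
  ring

theorem thetaC_S (D : Data p) (hp : 0 < p) (τ : ℂ) (hτ : 0 < τ.im) :
    thetaC D (-1 / τ) = -τ ^ 2 / p * thetaDualC D (τ / p) := by
  have h := theta_inversion D hp τ hτ 0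
  rw [thetaC, thetaDualC]
  have hL : ∀ x : Fin 4 → ℤ, cexp (2 * π * I * (D.q x : ℂ) * (-1 / τ)) =
      cexp (-2 * π * I * (D.qR (fun i => (x i : ℝ) + (0 : Fin 4 → ℝ) i) : ℝ) / τ) := by
    intro x
    have : D.qR (fun i => (x i : ℝ) + (0 : Fin 4 → ℝ) i) = (D.q x : ℝ) := by
      simpa using D.qR_intCast x
    rw [this]
    congr 1
    push_cast
    ring
  have hR : ∀ ξ : Fin 4 → ℤ, cexp (2 * π * I * (D.qd ξ : ℂ) * (τ / p)) =
      cexp (2 * π * I * (D.qd ξ : ℂ) * τ / p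
        - 2 * π * I * ∑ i, (ξ i : ℂ) * (((0 : Fin 4 → ℝ) i : ℝ) : ℂ)) := by
    intro ξ
    congr 1
    simp
    ring
  simp_rw [hL, hR]
  exact h

end Fermat.Agent.S16.Theta
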