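import Fermat.Agent.S16.Theta.Positive
import Fermat.Agent.S16.Theta.PoissonQ

/-!
# S16, theta part: representation numbers and the `q`-expansion of the theta series
-/

namespace Fermat.Agent.S16.Theta

open Complex Real

namespace Rep

/-- Grouping a power sum according to the value of the exponent. -/
theorem hasSum_card_fiber {X : Type*} (f : X → ℤ) (hf : ∀ x, 0 ≤ f x) (w : ℂ)
    (hs : Summable fun x => w ^ (f x).toNat) :
    HasSum (fun m : ℕ => (Nat.card {x : X // f x = m} : ℂ) * w ^ m)
      (∑' x, w ^ (f x).toNat) := by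
  have h := hs.hasSum.tsum_fiberwise (fun x => (f x).toNat)
  have key : (fun m : ℕ => (Nat.card {x : X // f x = m} : ℂ) * w ^ m) =
      fun c => ∑' b : ((fun x => (f x).toNat) ⁻¹' {c} : Set X), w ^ (f b.1).toNat := by
    funext m
    have h1 : ∀ b : ((fun x => (f x).toNat) ⁻¹' {m} : Set X), w ^ (f b.1).toNat = w ^ m := by
      rintro ⟨b, hb⟩
      have hb' : (f b).toNat = m := hb
      simp [hb']
    rw [tsum_congr h1, tsum_const, nsmul_eq_mul]
    congr 2
    refine Nat.card_congr (Equiv.subtypeEquivRight fun x => ?_)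
    have := hf x
    simp only [Set.mem_preimage, Set.mem_singleton_iff]
    omega
  rw [key]
  exact h

/-- A fixed-point-free involution forces an even cardinality. -/
theorem even_card_of_involution {X : Type*} (σ : X → X) (h2 : ∀ x, σ (σ x) = x)
    (hne : ∀ x, σ x ≠ x) : Even (Nat.card X) := by
  classical
  rcases finite_or_infinite X with hX | hX
  · have : Fintype X := Fintype.ofFinite X
    have : Fact (Nat.Prime 2) := ⟨Nat.prime_two⟩
    let τ : Function.End X := σ
    have hσ : τ ^ 2 ^ 1 = 1 := by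
      funext x
      simp only [pow_one, pow_two]
      exact h2 x
    have h := Equiv.Perm.card_fixedPoints_modEq (f := τ) (p := 2) (n := 1) hσ
    have h0 : Fintype.card (Function.fixedPoints τ) = 0 := by
      rw [Fintype.card_eq_zero_iff]
      exact ⟨fun x => hne x.1 x.2⟩
    rw [h0] at h
    rw [Nat.card_eq_fintype_card]
    exact Nat.even_iff.mpr h
  · simp

theorem cexp_int_eq (n : ℤ) (hn : 0 ≤ n) (z : ℂ) :
    cexp (2 * π * I * (n : ℂ) * z) = cexp (2 * π * I * z) ^ n.toNat := by
  rw [← Complex.exp_nat_mul]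
  congr 1
  have : ((n.toNat : ℤ) : ℂ) = (n : ℂ) := by rw [Int.toNat_of_nonneg hn]
  rw [Int.cast_natCast] at this
  rw [this]
  ring

end Rep

variable {p : ℕ}

theorem rep_zero (D : Data p) (hp : 0 < p) : D.rep 0 = 1 := by
  unfold Data.rep
  rw [Nat.card_eq_one_iff_unique]
  refine ⟨⟨?_⟩, ⟨⟨0, by simp [Data.q]⟩⟩⟩
  rintro ⟨x, hx⟩ ⟨y, hy⟩
  have hx0 : x = 0 := by
    by_contra h
    have := q_pos D hp x h
    simp at hx
    omega
  have hy0 : y = 0 := by
    by_contra h
    have := q_pos D hp y h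
    simp at hy
    omega
  simp [hx0, hy0]

theorem even_rep (D : Data p) (_hp : 0 < p) (m : ℕ) (hm : 1 ≤ m) : Even (D.rep m) := by
  unfold Data.rep
  refine Rep.even_card_of_involution
    (fun x => ⟨-x.1, (Q_neg _ _ _ _).trans x.2⟩) ?_ ?_
  · rintro ⟨x, hx⟩
    simp
  · rintro ⟨x, hx⟩ h
    have h1 : -x = x := congrArg Subtype.val h
    have h0 : x = 0 := by
      funext i
      have := congrFun h1 i
      simp only [Pi.neg_apply, Pi.zero_apply] at this ⊢
      omega
    rw [h0] at hx
    simp [Data.q] at hx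
    omega

/-- `hasSum_thetaC` with the summability of the theta terms as a hypothesis. -/
theorem Rep.hasSum_thetaC_of (D : Data p) (hp : 0 < p) (z : ℂ)
    (hs : Summable fun x : Fin 4 → ℤ => cexp (2 * π * I * (D.q x : ℂ) * z)) :
    HasSum (fun m : ℕ => (D.rep m : ℂ) * cexp (2 * π * I * z) ^ m) (thetaC D z) := by
  have hnn : ∀ x, 0 ≤ D.q x := by
    intro x
    by_cases hx : x = 0
    · simp [hx, Data.q]
    · exact (q_pos D hp x hx).le
  have he : ∀ x, cexp (2 * π * I * (D.q x : ℂ) * z) = cexp (2 * π * I * z) ^ (D.q x).toNat :=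
    fun x => Rep.cexp_int_eq _ (hnn x) z
  simp only [he] at hs
  have := Rep.hasSum_card_fiber D.q hnn _ hs
  unfold thetaC
  simp only [he]
  exact this

/-- `hasSum_thetaDualC` with the summability of the theta terms as a hypothesis. -/
theorem Rep.hasSum_thetaDualC_of (D : Data p) (hp : 0 < p) (z : ℂ)
    (hs : Summable fun x : Fin 4 → ℤ => cexp (2 * π * I * (D.qd x : ℂ) * z)) :
    HasSum (fun m : ℕ => (D.repd m : ℂ) * cexp (2 * π * I * z) ^ m) (thetaDualC D z) := by
  have hnn : ∀ x, 0 ≤ D.qd x := by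
    intro x
    by_cases hx : x = 0
    · simp [hx, Data.qd]
    · exact (qd_pos D hp x hx).le
  have he : ∀ x, cexp (2 * π * I * (D.qd x : ℂ) * z) = cexp (2 * π * I * z) ^ (D.qd x).toNat :=
    fun x => Rep.cexp_int_eq _ (hnn x) z
  simp only [he] at hs
  have := Rep.hasSum_card_fiber D.qd hnn _ hs
  unfold thetaDualC
  simp only [he]
  exact this

theorem hasSum_thetaC (D : Data p) (hp : 0 < p) (z : ℂ) (hz : 0 < z.im) :
    HasSum (fun m : ℕ => (D.rep m : ℂ) * cexp (2 * π * I * z) ^ m) (thetaC D z) :=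
  Rep.hasSum_thetaC_of D hp z (summable_theta_term D hp z hz)

theorem hasSum_thetaDualC (D : Data p) (hp : 0 < p) (z : ℂ) (hz : 0 < z.im) :
    HasSum (fun m : ℕ => (D.repd m : ℂ) * cexp (2 * π * I * z) ^ m) (thetaDualC D z) :=
  Rep.hasSum_thetaDualC_of D hp z (summable_thetaDual_term D hp z hz)

end Fermat.Agent.S16.Theta
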