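import Fermat.Agent.S16.Theta.Defs

/-!
# S16, theta part: reindexing identities for the quaternary Gauss sums

`gauss_vanish`: the Gauss sum with a linear term `ξ` vanishes unless `Bd ξ = 0`.
`gauss_shift`: completing the square when the linear term is `B x`.
-/

namespace Fermat.Agent.S16.Theta

variable {p : ℕ}

namespace GaussShift

/-- Translating by an element of the image of `Bd` does not change `Q` modulo `p`. -/
lemma qZ_add_bdZ (D : Data p) (g z : Fin 4 → ZMod p) : D.qZ (g + D.bdZ z) = D.qZ g := by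
  unfold Data.qZ Data.bdZ
  rw [Q_add, Q_Bd, B_Bd, D.det_eq_zmod]
  simp

/-- The linear form `ξ` evaluated on `Bd (e_i)` is the `i`-th coordinate of `Bd ξ`. -/
lemma sum_mul_bdZ_single (D : Data p) (ξ : Fin 4 → ZMod p) (i : Fin 4) :
    ∑ j, ξ j * D.bdZ (Pi.single i 1) j = D.bdZ ξ i := by
  unfold Data.bdZ
  rw [sum_mul_Bd_comm]
  simp [Pi.single_apply]

/-- Completing the square. -/
lemma shift_identity (D : Data p) (a d : ZMod p) (had : a * d = 1) (x h : Fin 4 → ZMod p) :
    a * D.qZ (h + (-d) • x) + ∑ i, D.bZ x i * (h + (-d) • x) i = a * D.qZ h + -(d * D.qZ x) := by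
  unfold Data.qZ Data.bZ
  have h1 : ∑ i, B (D.μ : ZMod p) D.s D.t x i * (h + (-d) • x) i
      = ∑ i, h i * B (D.μ : ZMod p) D.s D.t x i - d * (2 * Q (D.μ : ZMod p) D.s D.t x) := by
    rw [← sum_mul_B_self, Finset.mul_sum, ← Finset.sum_sub_distrib]
    refine Finset.sum_congr rfl fun i _ => ?_
    simp only [Pi.add_apply, Pi.smul_apply, smul_eq_mul]
    ring
  have h2 : ∑ i, h i * ((-d) • B (D.μ : ZMod p) D.s D.t x) i
      = -d * ∑ i, h i * B (D.μ : ZMod p) D.s D.t x i := by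
    rw [Finset.mul_sum]
    refine Finset.sum_congr rfl fun i _ => ?_
    simp only [Pi.smul_apply, smul_eq_mul]
    ring
  rw [h1, Q_add, Q_smul, B_smul, h2]
  linear_combination (d * Q (D.μ : ZMod p) D.s D.t x
    - ∑ i, h i * B (D.μ : ZMod p) D.s D.t x i) * had

end GaussShift

open GaussShift

theorem gauss_vanish [Fact p.Prime] (D : Data p) (a : ZMod p) (ξ : Fin 4 → ZMod p)
    (hξ : D.bdZ ξ ≠ 0) :
    ∑ g : Fin 4 → ZMod p, ZMod.stdAddChar (a * D.qZ g + ∑ i, ξ i * g i) = 0 := by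
  obtain ⟨i, hi⟩ : ∃ i, D.bdZ ξ i ≠ 0 := by
    simpa using Function.ne_iff.mp hξ
  set S : ℂ := ∑ g : Fin 4 → ZMod p, ZMod.stdAddChar (a * D.qZ g + ∑ i, ξ i * g i) with hS
  have hshift : S = ZMod.stdAddChar (D.bdZ ξ i) * S := by
    rw [hS, Finset.mul_sum]
    rw [← Equiv.sum_comp (Equiv.addRight (D.bdZ (Pi.single i 1)))]
    refine Finset.sum_congr rfl fun g _ => ?_
    rw [← AddChar.map_add_eq_mul]
    congr 1
    simp only [Equiv.coe_addRight, qZ_add_bdZ, Pi.add_apply, mul_add, Finset.sum_add_distrib,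
      sum_mul_bdZ_single]
    ring
  have hne : (ZMod.stdAddChar (D.bdZ ξ i) : ℂ) ≠ 1 := by
    intro h1
    rw [← (ZMod.stdAddChar (N := p)).map_zero_eq_one] at h1
    exact hi (ZMod.injective_stdAddChar h1)
  have h0 : (1 - ZMod.stdAddChar (D.bdZ ξ i)) * S = 0 := by
    linear_combination hshift
  rcases mul_eq_zero.mp h0 with h | h
  · exact absurd (sub_eq_zero.mp h).symm hne
  · exact h

theorem gauss_shift [Fact p.Prime] (D : Data p) (a d : ZMod p) (had : a * d = 1)
    (x : Fin 4 → ZMod p) :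
    ∑ g : Fin 4 → ZMod p, ZMod.stdAddChar (a * D.qZ g +
        ∑ i, D.bZ x i * g i) =
      ZMod.stdAddChar (-(d * D.qZ x)) * ∑ g : Fin 4 → ZMod p, ZMod.stdAddChar (a * D.qZ g) := by
  rw [Finset.mul_sum, ← Equiv.sum_comp (Equiv.addRight ((-d) • x))]
  refine Finset.sum_congr rfl fun h _ => ?_
  rw [← AddChar.map_add_eq_mul, Equiv.coe_addRight, shift_identity D a d had x h, add_comm]

end Fermat.Agent.S16.Theta
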