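import Fermat.Agent.S16.Theta.Defs

/-!
# S16, theta part: the quaternary Gauss sum is `-p^3` (owner: helper47)
-/

set_option autoImplicit false

namespace Fermat.Agent.S16.Theta

namespace GaussZero

variable {p : ℕ} [Fact p.Prime]

/-- the complex valued quadratic character of `ZMod p` -/
noncomputable def chi (p : ℕ) [Fact p.Prime] : MulChar (ZMod p) ℂ :=
  (quadraticChar (ZMod p)).ringHomComp (Int.castRingHom ℂ)

lemma chi_apply (x : ZMod p) : chi p x = ((quadraticChar (ZMod p) x : ℤ) : ℂ) := rfl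

lemma ringChar_ne_two (hp2 : p ≠ 2) : ringChar (ZMod p) ≠ 2 := by
  rwa [ZMod.ringChar_zmod_n]

lemma chi_sq_eq_one {x : ZMod p} (hx : x ≠ 0) : chi p x * chi p x = 1 := by
  rw [chi_apply, ← Int.cast_mul, ← pow_two, quadraticChar_sq_one hx, Int.cast_one]

/-- the quadratic Gauss sum in its "sum over squares" form -/
lemma sum_sq (hp2 : p ≠ 2) (c : ZMod p) (hc : c ≠ 0) :
    ∑ x : ZMod p, (ZMod.stdAddChar (c * x ^ 2) : ℂ) =
      chi p c * gaussSum (chi p) ZMod.stdAddChar := by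
  classical
  have h1 : ∑ x : ZMod p, (ZMod.stdAddChar (c * x ^ 2) : ℂ) =
      ∑ y : ZMod p, (chi p y + 1) * ZMod.stdAddChar (c * y) := by
    rw [← Finset.sum_fiberwise Finset.univ (fun x : ZMod p => x ^ 2)]
    refine Finset.sum_congr rfl fun y _ => ?_
    have h2 : ∀ x ∈ Finset.univ.filter (fun x : ZMod p => x ^ 2 = y),
        (ZMod.stdAddChar (c * x ^ 2) : ℂ) = ZMod.stdAddChar (c * y) := by
      intro x hx
      rw [(Finset.mem_filter.mp hx).2]
    rw [Finset.sum_congr rfl h2, Finset.sum_const, nsmul_eq_mul]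
    congr 1
    have h3 := quadraticChar_card_sqrts (ringChar_ne_two hp2) y
    have h4 : ({x : ZMod p | x ^ 2 = y}.toFinset) = Finset.univ.filter (fun x : ZMod p => x ^ 2 = y) := by
      ext x; simp
    rw [h4] at h3
    have h5 := congrArg (Int.cast : ℤ → ℂ) h3
    push_cast at h5
    rw [h5, chi_apply]
  rw [h1]
  simp only [add_mul, one_mul, Finset.sum_add_distrib]
  have h6 : ∑ y : ZMod p, (ZMod.stdAddChar (c * y) : ℂ) = 0 := by
    have := AddChar.sum_mulShift (R' := ℂ) c (ZMod.isPrimitive_stdAddChar p)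
    rw [if_neg hc] at this
    simpa [mul_comm] using this
  rw [h6, add_zero]
  have h7 := gaussSum_mulShift (chi p) (ZMod.stdAddChar (N := p)) (Units.mk0 c hc)
  have h8 : gaussSum (chi p) (AddChar.mulShift (ZMod.stdAddChar (N := p)) c) =
      ∑ y : ZMod p, chi p y * ZMod.stdAddChar (c * y) := by
    simp [gaussSum, AddChar.mulShift_apply]
  rw [← h8, ← h7, Units.val_mk0, ← mul_assoc, chi_sq_eq_one hc, one_mul]

lemma chi_ne_one (hp2 : p ≠ 2) : chi p ≠ 1 :=
  (MulChar.ringHomComp_ne_one_iff (Int.castRingHom ℂ).injective_int).mpr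
    (quadraticChar_ne_one (ringChar_ne_two hp2))

lemma chi_isQuadratic : (chi p).IsQuadratic :=
  (quadraticChar_isQuadratic (ZMod p)).comp _

lemma gauss_sq (hp2 : p ≠ 2) :
    gaussSum (chi p) (ZMod.stdAddChar (N := p)) ^ 2 = chi p (-1) * p := by
  have := gaussSum_sq (chi_ne_one hp2) chi_isQuadratic (ZMod.isPrimitive_stdAddChar p)
  rwa [ZMod.card] at this

/-- the diagonalising change of variables -/
def phi (r t : ZMod p) (x : Fin 4 → ZMod p) : Fin 4 → ZMod p :=
  ![2 * x 0 + x 1 + t * x 3, r * x 1 - t * (2 * x 2 + x 3), x 2, x 3]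

/-- its inverse -/
def phiInv (r t : ZMod p) (y : Fin 4 → ZMod p) : Fin 4 → ZMod p :=
  ![(y 0 - (y 1 + t * (2 * y 2 + y 3)) / r - t * y 3) / 2, (y 1 + t * (2 * y 2 + y 3)) / r,
    y 2, y 3]

lemma two_ne_zero' (hp2 : p ≠ 2) : (2 : ZMod p) ≠ 0 := by
  intro h
  have h2 : ((2 : ℕ) : ZMod p) = 0 := by exact_mod_cast h
  rw [ZMod.natCast_eq_zero_iff] at h2
  have := (Nat.prime_dvd_prime_iff_eq (Fact.out : p.Prime) Nat.prime_two).mp h2
  exact hp2 this

lemma phi_phiInv (hp2 : p ≠ 2) {r : ZMod p} (hr : r ≠ 0) (t : ZMod p) (y : Fin 4 → ZMod p) :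
    phi r t (phiInv r t y) = y := by
  have h2 := two_ne_zero' hp2
  funext i
  fin_cases i
  · simp [phi, phiInv]; field_simp; ring
  · simp [phi, phiInv]; field_simp; ring
  · simp [phi, phiInv]
  · simp [phi, phiInv]

lemma phiInv_phi (hp2 : p ≠ 2) {r : ZMod p} (hr : r ≠ 0) (t : ZMod p) (x : Fin 4 → ZMod p) :
    phiInv r t (phi r t x) = x := by
  have h2 := two_ne_zero' hp2
  funext i
  fin_cases i
  · simp [phi, phiInv]; field_simp; ring
  · simp [phi, phiInv]; field_simp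
  · simp [phi, phiInv]
  · simp [phi, phiInv]

/-- the change of variables as an equivalence -/
def phiEquiv (hp2 : p ≠ 2) {r : ZMod p} (hr : r ≠ 0) (t : ZMod p) :
    (Fin 4 → ZMod p) ≃ (Fin 4 → ZMod p) where
  toFun := phi r t
  invFun := phiInv r t
  left_inv := phiInv_phi hp2 hr t
  right_inv := phi_phiInv hp2 hr t

/-- sum of a product function over `Fin 4 → F` with two trivial factors -/
lemma sum_two_factors (f0 f1 : ZMod p → ℂ) :
    ∑ y : Fin 4 → ZMod p, f0 (y 0) * f1 (y 1) =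
      (p : ℂ) ^ 2 * ((∑ x, f0 x) * ∑ x, f1 x) := by
  classical
  have h := Finset.prod_univ_sum (fun _ : Fin 4 => (Finset.univ : Finset (ZMod p)))
    (fun (i : Fin 4) (x : ZMod p) => (![f0, f1, fun _ => 1, fun _ => 1] : Fin 4 → ZMod p → ℂ) i x)
  rw [Fintype.piFinset_univ] at h
  simp only [Fin.prod_univ_four] at h
  simp only [Matrix.cons_val_zero, Matrix.cons_val_one, Matrix.cons_val, Finset.sum_const,
    Finset.card_univ, ZMod.card, nsmul_eq_mul, mul_one] at h
  rw [← h]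
  ring

end GaussZero

open GaussZero in
theorem gauss_zero {p : ℕ} [Fact p.Prime] (hp2 : p ≠ 2) (D : Data p) (a : ZMod p) (ha : a ≠ 0) :
    ∑ g : Fin 4 → ZMod p, ZMod.stdAddChar (a * D.qZ g) = -(p : ℂ) ^ 3 := by
  set r : ZMod p := 4 * (D.μ : ZMod p) - 1 with hr_def
  set t : ZMod p := (D.t : ZMod p) with ht_def
  have h2 := two_ne_zero' hp2
  have h4 : (4 : ZMod p) ≠ 0 := by
    have : (4 : ZMod p) = 2 * 2 := by norm_num
    rw [this]; exact mul_ne_zero h2 h2
  have hnr : ¬ IsSquare (-r) := by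
    have := D.nonres
    push_cast at this
    exact this
  have hr : r ≠ 0 := by
    intro h
    apply hnr
    rw [h, neg_zero]
    exact IsSquare.zero
  -- diagonal form
  have hQ : ∀ g : Fin 4 → ZMod p, a * D.qZ g =
      a / 4 * (phi r t g 0) ^ 2 + a / (4 * r) * (phi r t g 1) ^ 2 := by
    intro g
    have h := four_r_mul_Q (D.μ : ZMod p) (D.s : ZMod p) (D.t : ZMod p) g
    rw [D.det_eq_zmod, zero_mul, add_zero] at h
    have h' : D.qZ g = (r * (2 * g 0 + g 1 + t * g 3) ^ 2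
        + (r * g 1 - t * (2 * g 2 + g 3)) ^ 2) / (4 * r) := by
      rw [eq_div_iff (mul_ne_zero h4 hr), mul_comm]
      exact h
    rw [h']
    simp only [phi, Matrix.cons_val_zero, Matrix.cons_val_one]
    field_simp
  calc ∑ g : Fin 4 → ZMod p, (ZMod.stdAddChar (a * D.qZ g) : ℂ)
      = ∑ g : Fin 4 → ZMod p, (ZMod.stdAddChar (a / 4 * (phi r t g 0) ^ 2) : ℂ) *
          ZMod.stdAddChar (a / (4 * r) * (phi r t g 1) ^ 2) := by
        refine Finset.sum_congr rfl fun g _ => ?_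
        rw [hQ g, AddChar.map_add_eq_mul]
    _ = ∑ y : Fin 4 → ZMod p, (ZMod.stdAddChar (a / 4 * (y 0) ^ 2) : ℂ) *
          ZMod.stdAddChar (a / (4 * r) * (y 1) ^ 2) :=
        Equiv.sum_comp (phiEquiv hp2 hr t)
          (fun y : Fin 4 → ZMod p => (ZMod.stdAddChar (a / 4 * (y 0) ^ 2) : ℂ) *
            ZMod.stdAddChar (a / (4 * r) * (y 1) ^ 2))
    _ = (p : ℂ) ^ 2 * ((∑ x : ZMod p, (ZMod.stdAddChar (a / 4 * x ^ 2) : ℂ)) *
          ∑ x : ZMod p, (ZMod.stdAddChar (a / (4 * r) * x ^ 2) : ℂ)) :=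
        sum_two_factors (fun x : ZMod p => (ZMod.stdAddChar (a / 4 * x ^ 2) : ℂ))
          (fun x : ZMod p => (ZMod.stdAddChar (a / (4 * r) * x ^ 2) : ℂ))
    _ = -(p : ℂ) ^ 3 := by
        have hc0 : a / 4 ≠ 0 := div_ne_zero ha h4
        have hc1 : a / (4 * r) ≠ 0 := div_ne_zero ha (mul_ne_zero h4 hr)
        rw [sum_sq hp2 _ hc0, sum_sq hp2 _ hc1]
        have hG := gauss_sq (p := p) hp2
        have hchi : chi p (a / 4) * chi p (a / (4 * r)) * chi p (-1) = -1 := by
          rw [← map_mul, ← map_mul]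
          have e : a / 4 * (a / (4 * r)) * -1 = (-r) * (a / (4 * r)) ^ 2 := by
            field_simp
          rw [e, map_mul, map_pow, pow_two, chi_sq_eq_one hc1, mul_one, chi_apply,
            (quadraticChar_neg_one_iff_not_isSquare).mpr hnr]
          simp
        calc (p : ℂ) ^ 2 * (chi p (a / 4) * gaussSum (chi p) ZMod.stdAddChar *
              (chi p (a / (4 * r)) * gaussSum (chi p) ZMod.stdAddChar))
            = (p : ℂ) ^ 2 * (chi p (a / 4) * chi p (a / (4 * r))) *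
                gaussSum (chi p) ZMod.stdAddChar ^ 2 := by ring
          _ = (p : ℂ) ^ 3 * (chi p (a / 4) * chi p (a / (4 * r)) * chi p (-1)) := by
              rw [hG]; ring
          _ = -(p : ℂ) ^ 3 := by rw [hchi]; ring

end Fermat.Agent.S16.Theta
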