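import Fermat.Agent.S16.Theta.Defs

/-!
# S16, theta part: the image of the Gram map (owner: helper292)
-/

namespace Fermat.Agent.S16.Theta

variable {p : ℕ}

namespace Range

theorem bd_b (D : Data p) (x : Fin 4 → ℤ) : D.bd (D.b x) = (p : ℤ) • x := by
  have h := Bd_B D.μ D.s D.t x
  rw [D.det_eq] at h
  exact h

theorem b_bd (D : Data p) (x : Fin 4 → ℤ) : D.b (D.bd x) = (p : ℤ) • x := by
  have h := B_Bd D.μ D.s D.t x
  rw [D.det_eq] at h
  exact h

theorem smul_injective (hp : 0 < p) {x y : Fin 4 → ℤ} (h : (p : ℤ) • x = (p : ℤ) • y) :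
    x = y := by
  funext i
  have hi := congrFun h i
  simp only [Pi.smul_apply, smul_eq_mul] at hi
  have hp' : (p : ℤ) ≠ 0 := by exact_mod_cast hp.ne'
  exact mul_left_cancel₀ hp' hi

end Range

theorem b_injective (D : Data p) (hp : 0 < p) : Function.Injective D.b := by
  intro x y h
  apply Range.smul_injective hp
  rw [← Range.bd_b D x, ← Range.bd_b D y, h]

theorem mem_range_b_iff (D : Data p) (hp : 0 < p) (ξ : Fin 4 → ℤ) :
    ξ ∈ Set.range D.b ↔ ∀ i, (p : ℤ) ∣ D.bd ξ i := by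
  constructor
  · rintro ⟨x, rfl⟩ i
    rw [Range.bd_b]
    exact ⟨x i, rfl⟩
  · intro h
    choose x hx using h
    refine ⟨x, ?_⟩
    apply Range.smul_injective hp
    have h1 : D.bd ξ = (p : ℤ) • x := by
      funext i
      rw [hx i]
      rfl
    have h2 : D.b ((p : ℤ) • x) = (p : ℤ) • D.b x := B_smul D.μ D.s D.t x (p : ℤ)
    rw [← h2, ← h1, Range.b_bd]

end Fermat.Agent.S16.Theta
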