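import Mathlib

/-!
# S16, theta part: splitting a lattice sum into residue classes mod `p`
(task S16-Theta-04, helper265)
-/

namespace Fermat.Agent.S16.Theta

namespace Split

/-- `(g, y) ↦ g.val + p * y` as an equivalence `(ZMod p)ⁿ × ℤⁿ ≃ ℤⁿ`. -/
noncomputable def splitEquiv (p : ℕ) [NeZero p] (n : ℕ) :
    (Fin n → ZMod p) × (Fin n → ℤ) ≃ (Fin n → ℤ) where
  toFun gy := fun i => ((gy.1 i).val : ℤ) + p * gy.2 i
  invFun x := (fun i => (x i : ZMod p), fun i => x i / p)
  left_inv := by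
    rintro ⟨g, y⟩
    have hp : (p : ℤ) ≠ 0 := by exact_mod_cast NeZero.ne p
    refine Prod.ext ?_ ?_
    · funext i
      simp
    · funext i
      show (((g i).val : ℤ) + p * y i) / p = y i
      rw [Int.add_mul_ediv_left _ _ hp, Int.ediv_eq_zero_of_lt (by positivity)
        (by exact_mod_cast ZMod.val_lt (g i)), zero_add]
  right_inv := by
    intro x
    funext i
    show (((x i : ZMod p)).val : ℤ) + p * (x i / p) = x i
    rw [ZMod.val_intCast]
    exact Int.emod_add_mul_ediv (x i) p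

end Split

theorem tsum_split (p : ℕ) [NeZero p] {n : ℕ} (F : (Fin n → ℤ) → ℂ) (hF : Summable F) :
    (∀ g : Fin n → ZMod p, Summable fun y : Fin n → ℤ => F (fun i => ((g i).val : ℤ) + p * y i)) ∧
    ∑' x, F x = ∑ g : Fin n → ZMod p, ∑' y : Fin n → ℤ, F (fun i => ((g i).val : ℤ) + p * y i) := by
  have hs : Summable fun gy : (Fin n → ZMod p) × (Fin n → ℤ) => F (Split.splitEquiv p n gy) :=
    (Split.splitEquiv p n).summable_iff.mpr hF
  have h1 : ∀ g : Fin n → ZMod p,
      Summable fun y : Fin n → ℤ => F (fun i => ((g i).val : ℤ) + p * y i) :=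
    fun g => hs.prod_factor g
  refine ⟨h1, ?_⟩
  rw [← (Split.splitEquiv p n).tsum_eq F, hs.tsum_prod' h1, tsum_fintype]
  rfl

end Fermat.Agent.S16.Theta
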