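import Fermat.Agent.S16.Theta.PoissonQ
import Fermat.Agent.S16.Theta.Split
import Fermat.Agent.S16.Theta.GaussZero
import Fermat.Agent.S16.Theta.GaussShift
import Fermat.Agent.S16.Theta.Range

/-!
# S16, theta part, task 08 (owner helper110): transformation of `thetaC` under `[[a, b], [p, d]]`
-/

set_option autoImplicit false

namespace Fermat.Agent.S16.Theta

open Complex Real

namespace Trans

variable {p : ℕ}

/-- the representative of the class `g` shifted by `p y`. -/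
def lift (g : Fin 4 → ZMod p) (y : Fin 4 → ℤ) : Fin 4 → ℤ := fun i => ((g i).val : ℤ) + p * y i

/-- the real shift vector `g / p`. -/
noncomputable def shift (g : Fin 4 → ZMod p) : Fin 4 → ℝ := fun i => ((g i).val : ℝ) / p

lemma lift_cast [NeZero p] (g : Fin 4 → ZMod p) (y : Fin 4 → ℤ) :
    (fun i => ((lift g y i : ℤ) : ZMod p)) = g := by
  funext i
  simp [lift]

lemma q_lift_zmod [NeZero p] (D : Data p) (g : Fin 4 → ZMod p) (y : Fin 4 → ℤ) :
    ((D.q (lift g y) : ℤ) : ZMod p) = D.qZ g := by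
  rw [← D.qZ_intCast, lift_cast]

lemma q_lift_real [NeZero p] (D : Data p) (g : Fin 4 → ZMod p) (y : Fin 4 → ℤ) :
    ((D.q (lift g y) : ℤ) : ℝ) = (p : ℝ) ^ 2 * D.qR (fun i => (y i : ℝ) + shift g i) := by
  have hp : (p : ℝ) ≠ 0 := Nat.cast_ne_zero.mpr (NeZero.ne p)
  rw [← D.qR_intCast, Data.qR, Data.qR, ← Q_smul]
  congr 1
  funext i
  simp only [lift, shift, Pi.smul_apply, smul_eq_mul]
  push_cast
  field_simp
  ring

/-- decomposition of the theta term. -/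
lemma term_eq [NeZero p] (D : Data p) (a : ℤ) (τ' : ℂ) (hτ' : τ' ≠ 0) (g : Fin 4 → ZMod p)
    (y : Fin 4 → ℤ) :
    cexp (2 * π * I * (D.q (lift g y) : ℂ) * ((a : ℂ) / p - 1 / ((p : ℂ) ^ 2 * τ'))) =
      ZMod.stdAddChar ((a : ZMod p) * D.qZ g) *
        cexp (-2 * π * I * (D.qR (fun i => (y i : ℝ) + shift g i) : ℝ) / τ') := by
  have hp : (p : ℂ) ≠ 0 := Nat.cast_ne_zero.mpr (NeZero.ne p)
  have h1 : (a : ZMod p) * D.qZ g = ((a * D.q (lift g y) : ℤ) : ZMod p) := by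
    rw [Int.cast_mul, q_lift_zmod]
  have h2 : ((D.q (lift g y) : ℤ) : ℂ) =
      (p : ℂ) ^ 2 * (D.qR (fun i => (y i : ℝ) + shift g i) : ℝ) := by
    have := congrArg (fun r : ℝ => (r : ℂ)) (q_lift_real D g y)
    simpa using this
  rw [h1, ZMod.stdAddChar_coe, ← Complex.exp_add]
  congr 1
  rw [mul_sub, sub_eq_add_neg]
  congr 1
  · push_cast
    ring
  · rw [h2]
    field_simp

/-- decomposition of the dual term. -/
lemma dual_term_eq [NeZero p] (D : Data p) (τ' : ℂ) (g : Fin 4 → ZMod p) (ξ : Fin 4 → ℤ) :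
    cexp (2 * π * I * (D.qd ξ : ℂ) * τ' / p - 2 * π * I * ∑ i, (ξ i : ℂ) * (shift g i : ℂ)) =
      cexp (2 * π * I * (D.qd ξ : ℂ) * (τ' / p)) *
        ZMod.stdAddChar (∑ i, ((-ξ i : ℤ) : ZMod p) * g i) := by
  have hp : (p : ℂ) ≠ 0 := Nat.cast_ne_zero.mpr (NeZero.ne p)
  have h1 : ∑ i, ((-ξ i : ℤ) : ZMod p) * g i = ((∑ i, (-ξ i) * ((g i).val : ℤ) : ℤ) : ZMod p) := by
    push_cast
    refine Finset.sum_congr rfl fun i _ => ?_
    rw [ZMod.natCast_zmod_val]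
  rw [h1, ZMod.stdAddChar_coe, ← Complex.exp_add]
  congr 1
  rw [sub_eq_add_neg]
  congr 1
  · ring
  · push_cast
    simp only [shift]
    push_cast
    rw [Finset.mul_sum, Finset.mul_sum, Finset.sum_div, ← Finset.sum_neg_distrib]
    refine Finset.sum_congr rfl fun i _ => ?_
    field_simp

/-- the quaternary Gauss sum with linear term. -/
noncomputable def gs [NeZero p] (D : Data p) (a : ZMod p) (η : Fin 4 → ZMod p) : ℂ :=
  ∑ g : Fin 4 → ZMod p, ZMod.stdAddChar (a * D.qZ g + ∑ i, η i * g i)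

lemma norm_stdAddChar [NeZero p] (j : ZMod p) : ‖(ZMod.stdAddChar j : ℂ)‖ = 1 := by
  rw [ZMod.stdAddChar_apply, Circle.norm_coe]

lemma div_p_im [NeZero p] {τ' : ℂ} (hτ' : 0 < τ'.im) : 0 < (τ' / p).im := by
  have hp : (0 : ℝ) < p := Nat.cast_pos.mpr (NeZero.pos p)
  rw [Complex.div_natCast_im]
  positivity

lemma summable_dual [NeZero p] (D : Data p) {τ' : ℂ} (hτ' : 0 < τ'.im) (g : Fin 4 → ZMod p) :
    Summable fun ξ : Fin 4 → ℤ => cexp (2 * π * I * (D.qd ξ : ℂ) * (τ' / p)) *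
      ZMod.stdAddChar (∑ i, ((-ξ i : ℤ) : ZMod p) * g i) := by
  apply Summable.of_norm
  simp only [norm_mul, norm_stdAddChar, mul_one]
  exact (summable_thetaDual_term D (NeZero.pos p) (τ' / p) (div_p_im hτ')).norm

lemma z_im [NeZero p] (a : ℤ) {τ' : ℂ} (hτ' : 0 < τ'.im) :
    0 < ((a : ℂ) / p - 1 / ((p : ℂ) ^ 2 * τ')).im := by
  have hp : (0 : ℝ) < p := Nat.cast_pos.mpr (NeZero.pos p)
  have h1 : ((a : ℂ) / p).im = 0 := by
    rw [Complex.div_natCast_im]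
    simp
  have hw : ((p : ℂ) ^ 2 * τ').im = (p : ℝ) ^ 2 * τ'.im := by
    have : ((p : ℂ) ^ 2 * τ') = (((p : ℝ) ^ 2 : ℝ) : ℂ) * τ' := by push_cast; ring
    rw [this, Complex.im_ofReal_mul]
  have hw0 : (p : ℂ) ^ 2 * τ' ≠ 0 := by
    intro h0
    rw [h0] at hw
    simp only [Complex.zero_im] at hw
    have : 0 < (p : ℝ) ^ 2 * τ'.im := by positivity
    linarith
  rw [Complex.sub_im, h1, one_div, Complex.inv_im, hw]
  have : 0 < Complex.normSq ((p : ℂ) ^ 2 * τ') := Complex.normSq_pos.mpr hw0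
  have h3 : 0 < (p : ℝ) ^ 2 * τ'.im / Complex.normSq ((p : ℂ) ^ 2 * τ') := by positivity
  rw [neg_div]
  linarith

lemma step1 [NeZero p] (D : Data p) (a : ℤ) {τ' : ℂ} (hτ' : 0 < τ'.im) :
    thetaC D ((a : ℂ) / p - 1 / ((p : ℂ) ^ 2 * τ')) =
      -τ' ^ 2 / p * ∑' ξ : Fin 4 → ℤ, cexp (2 * π * I * (D.qd ξ : ℂ) * (τ' / p)) *
        gs D a (fun i => ((-ξ i : ℤ) : ZMod p)) := by
  have hτ0 : τ' ≠ 0 := by
    rintro rfl
    simp at hτ'
  have hsplit := (tsum_split p (fun x : Fin 4 → ℤ =>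
    cexp (2 * π * I * (D.q x : ℂ) * ((a : ℂ) / p - 1 / ((p : ℂ) ^ 2 * τ'))))
    (summable_theta_term D (NeZero.pos p) _ (z_im a hτ'))).2
  rw [thetaC, hsplit]
  have hg : ∀ g : Fin 4 → ZMod p,
      ∑' y : Fin 4 → ℤ, cexp (2 * π * I * (D.q (fun i => ((g i).val : ℤ) + p * y i) : ℂ) *
        ((a : ℂ) / p - 1 / ((p : ℂ) ^ 2 * τ'))) =
      -τ' ^ 2 / p * ∑' ξ : Fin 4 → ℤ, ZMod.stdAddChar ((a : ZMod p) * D.qZ g) *
        (cexp (2 * π * I * (D.qd ξ : ℂ) * (τ' / p)) *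
          ZMod.stdAddChar (∑ i, ((-ξ i : ℤ) : ZMod p) * g i)) := by
    intro g
    have e1 : ∀ y : Fin 4 → ℤ,
        cexp (2 * π * I * (D.q (fun i => ((g i).val : ℤ) + p * y i) : ℂ) *
          ((a : ℂ) / p - 1 / ((p : ℂ) ^ 2 * τ'))) =
        ZMod.stdAddChar ((a : ZMod p) * D.qZ g) *
          cexp (-2 * π * I * (D.qR (fun i => (y i : ℝ) + shift g i) : ℝ) / τ') :=
      fun y => term_eq D a τ' hτ0 g y
    simp_rw [e1]
    rw [tsum_mul_left, theta_inversion D (NeZero.pos p) τ' hτ' (shift g), tsum_mul_left]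
    simp_rw [dual_term_eq]
    ring
  simp_rw [hg]
  rw [← Finset.mul_sum, ← Summable.tsum_finsetSum (fun g _ => (summable_dual D hτ' g).mul_left _)]
  congr 1
  refine tsum_congr fun ξ => ?_
  rw [gs, Finset.mul_sum]
  refine Finset.sum_congr rfl fun g _ => ?_
  rw [AddChar.map_add_eq_mul]
  ring

lemma bd_neg (D : Data p) (ξ : Fin 4 → ℤ) : D.bd (-ξ) = -D.bd ξ := by
  have := Bd_smul D.μ D.s D.t ξ (-1)
  simpa [Data.bd] using this

lemma gs_eq_zero [Fact p.Prime] (D : Data p) (a : ZMod p) (ξ : Fin 4 → ℤ)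
    (hξ : -ξ ∉ Set.range D.b) : gs D a (fun i => ((-ξ i : ℤ) : ZMod p)) = 0 := by
  have hp : 0 < p := (Fact.out : p.Prime).pos
  apply gauss_vanish
  intro h0
  apply hξ
  rw [mem_range_b_iff D hp]
  intro i
  have h1 := congrFun h0 i
  have h2 := D.bdZ_intCast (-ξ) i
  simp only [Pi.neg_apply] at h2
  rw [h2] at h1
  exact (ZMod.intCast_zmod_eq_zero_iff_dvd _ _).mp h1

lemma gs_b [Fact p.Prime] (hp2 : p ≠ 2) (D : Data p) (a d : ℤ) (had : (a : ZMod p) * d = 1)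
    (x : Fin 4 → ℤ) :
    gs D a (fun i => ((D.b x i : ℤ) : ZMod p)) =
      ZMod.stdAddChar (((-(d * D.q x) : ℤ)) : ZMod p) * (-(p : ℂ) ^ 3) := by
  have ha : (a : ZMod p) ≠ 0 := by
    intro h0
    rw [h0, zero_mul] at had
    exact zero_ne_one had
  have e : (fun i => ((D.b x i : ℤ) : ZMod p)) = D.bZ (fun i => (x i : ZMod p)) := by
    funext i
    rw [D.bZ_intCast]
  rw [e, gs, gauss_shift D a d had, gauss_zero hp2 D a ha, D.qZ_intCast]
  push_cast
  rfl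

lemma qd_neg_b (D : Data p) (x : Fin 4 → ℤ) : D.qd (-(D.b x)) = p * D.q x := by
  rw [Data.qd, Qd_neg, Data.b, Qd_B, D.det_eq, Data.q]

lemma step2 [Fact p.Prime] (hp2 : p ≠ 2) (D : Data p) (a d : ℤ) (had : (a : ZMod p) * d = 1)
    (τ' : ℂ) :
    ∑' ξ : Fin 4 → ℤ, cexp (2 * π * I * (D.qd ξ : ℂ) * (τ' / p)) *
        gs D a (fun i => ((-ξ i : ℤ) : ZMod p)) =
      -(p : ℂ) ^ 3 * thetaC D (τ' - d / p) := by
  have hp : 0 < p := (Fact.out : p.Prime).pos
  have hpc : (p : ℂ) ≠ 0 := Nat.cast_ne_zero.mpr hp.ne'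
  have hinj : Function.Injective (fun x : Fin 4 → ℤ => -(D.b x)) :=
    neg_injective.comp (b_injective D hp)
  rw [← hinj.tsum_eq (f := fun ξ : Fin 4 → ℤ => cexp (2 * π * I * (D.qd ξ : ℂ) * (τ' / p)) *
        gs D a (fun i => ((-ξ i : ℤ) : ZMod p)))]
  · rw [thetaC, ← tsum_mul_left]
    refine tsum_congr fun x => ?_
    have e : (fun i => ((-(-(D.b x)) i : ℤ) : ZMod p)) = fun i => ((D.b x i : ℤ) : ZMod p) := by
      funext i
      simp
    rw [e, gs_b hp2 D a d had, qd_neg_b, ZMod.stdAddChar_coe, ← mul_assoc, ← Complex.exp_add,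
      mul_comm]
    congr 2
    push_cast
    field_simp
    ring
  · intro ξ hξ
    by_contra hnot
    apply hξ
    have : -ξ ∉ Set.range D.b := by
      rintro ⟨x, hx⟩
      exact hnot ⟨x, by simp [hx]⟩
    simp only [gs_eq_zero D a ξ this, mul_zero]

end Trans

open _root_.Fermat.Agent.S16.Theta.Trans in
theorem thetaC_trans {p : ℕ} [Fact p.Prime] (hp2 : p ≠ 2) (D : Data p) (a b d : ℤ)
    (h : a * d - b * p = 1) (τ : ℂ) (hτ : 0 < τ.im) :
    thetaC D ((a * τ + b) / (p * τ + d)) = (p * τ + d) ^ 2 * thetaC D τ := by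
  have hp : 0 < p := (Fact.out : p.Prime).pos
  have : NeZero p := ⟨hp.ne'⟩
  have hpc : (p : ℂ) ≠ 0 := Nat.cast_ne_zero.mpr hp.ne'
  have had : (a : ZMod p) * d = 1 := by
    have := congrArg (Int.cast : ℤ → ZMod p) h
    push_cast at this
    simpa using this
  have hτ' : 0 < (τ + d / p).im := by
    have : ((d : ℂ) / p).im = 0 := by
      rw [Complex.div_natCast_im]
      simp
    rw [Complex.add_im, this, add_zero]
    exact hτ
  have hτ0 : τ + d / p ≠ 0 := by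
    intro h0
    rw [h0] at hτ'
    simp at hτ'
  have hden : (p : ℂ) * τ + d ≠ 0 := by
    have : (p : ℂ) * τ + d = p * (τ + d / p) := by field_simp
    rw [this]
    exact mul_ne_zero hpc hτ0
  have hc : (a : ℂ) * d - b * p = 1 := by exact_mod_cast h
  have hz : ((a : ℂ) * τ + b) / (p * τ + d) = (a : ℂ) / p - 1 / ((p : ℂ) ^ 2 * (τ + d / p)) := by
    have e : (p : ℂ) ^ 2 * (τ + d / p) = p * (p * τ + d) := by field_simp
    rw [e, div_sub_div _ _ hpc (mul_ne_zero hpc hden),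
      div_eq_div_iff hden (mul_ne_zero hpc (mul_ne_zero hpc hden))]
    linear_combination (-(p : ℂ) * (p * τ + d)) * hc
  rw [hz, step1 D a hτ', step2 hp2 D a d had, add_sub_cancel_right]
  field_simp

end Fermat.Agent.S16.Theta
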