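import Fermat.Agent.S16.Theta.SlashCore
import Fermat.Agent.S16.Theta.Trans
import Fermat.Agent.S16.Theta.Gen
import Fermat.Agent.S16.Theta.Cosets
import Fermat.Agent.S16.Theta.PoissonQ
import Fermat.Agent.S16.Theta.Rep
import Fermat.Agent.S16.Theta.Holo
import Fermat.Agent.S16.Theta.Exists
import Fermat.Prelude.Def_FLTPrelim_Modularity
import Fermat.Prelude.Thm_CongruenceSubgroup_one_mem_strictPeriods_Gamma0

/-!
# S16, theta part: the theta series as a modular form of weight 2 on `Γ₀(p)`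
-/

set_option autoImplicit false

namespace Fermat.Agent.S16.Theta

open Complex Real
open UpperHalfPlane hiding I
open scoped MatrixGroups ModularForm Manifold

variable {p : ℕ}

namespace Final

theorem slash_of_mem [Fact p.Prime] (hp2 : p ≠ 2) (D : Data p) (γ : SL(2, ℤ))
    (hγ : γ ∈ CongruenceSubgroup.Gamma0 p) : theta D ∣[(2 : ℤ)] γ = theta D :=
  Slash.slash_of_mem D (fun a b d h τ hτ => thetaC_trans hp2 D a b d h τ hτ)
    (fun H hT hneg hH => Gamma0_le_of_mem H hT hneg hH) γ hγ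

theorem isBoundedAtImInfty_slash [Fact p.Prime] (hp2 : p ≠ 2) (D : Data p) (γ : SL(2, ℤ)) :
    IsBoundedAtImInfty (theta D ∣[(2 : ℤ)] γ) :=
  have hp : 0 < p := (Fact.out : p.Prime).pos
  Slash.isBoundedAtImInfty_slash D hp (slash_of_mem hp2 D)
    (Slash.slash_S D (fun τ hτ => thetaC_S D hp τ hτ))
    (fun γ hγ => exists_Gamma0_mul_S_T γ hγ)
    (fun z hz => hasSum_thetaC D hp z hz) (fun z hz => hasSum_thetaDualC D hp z hz) γ

/-- The theta series of the lattice `D` as a modular form of weight `2` on `Γ₀(p)`. -/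
noncomputable def thetaForm [Fact p.Prime] (hp2 : p ≠ 2) (D : Data p) :
    ModularForm (CongruenceSubgroup.Gamma0 p : Subgroup (GL (Fin 2) ℝ)) 2 where
  toFun := theta D
  slash_action_eq' := by
    rintro _ ⟨γ, hγ, rfl⟩
    exact slash_of_mem hp2 D γ hγ
  holo' := mdifferentiable_theta D (Fact.out : p.Prime).pos
  bdd_at_cusps' := by
    intro c hc
    have hc' : IsCusp c 𝒮ℒ := hc.mono (Subgroup.map_le_range _ _)
    rw [OnePoint.isBoundedAt_iff_forall_SL2Z hc']
    exact fun γ _ => isBoundedAtImInfty_slash hp2 D γ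

@[simp] theorem coe_thetaForm [Fact p.Prime] (hp2 : p ≠ 2) (D : Data p) :
    (thetaForm hp2 D : ℍ → ℂ) = theta D := rfl

theorem qExpansion_coeff_thetaForm [Fact p.Prime] (hp2 : p ≠ 2) (D : Data p) (m : ℕ) :
    (qExpansion 1 (thetaForm hp2 D)).coeff m = (D.rep m : ℂ) := by
  refine (ModularFormClass.qExpansion_coeff_unique (c := fun m => (D.rep m : ℂ)) one_pos
    (CongruenceSubgroup.one_mem_strictPeriods_Gamma0 p) (f := thetaForm hp2 D) ?_ m).symm
  intro τ
  have h := hasSum_thetaC D (Fact.out : p.Prime).pos (τ : ℂ) τ.im_pos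
  have hq : Function.Periodic.qParam 1 (τ : ℂ) = cexp (2 * π * I * τ) := by
    simp [Function.Periodic.qParam]
  simpa [hq, smul_eq_mul, theta] using h

end Final

theorem exists_theta [Fact p.Prime] (hp2 : p ≠ 2) :
    ∃ G : ModularForm (CongruenceSubgroup.Gamma0 p) 2,
      ModularFormClass.qCoeff G 0 = 1 ∧
      ∀ k : ℕ, 1 ≤ k → ∃ m : ℤ, ModularFormClass.qCoeff G k = 2 * (m : ℂ) := by
  obtain ⟨D⟩ := exists_data (p := p) hp2
  have hp : 0 < p := (Fact.out : p.Prime).pos
  refine ⟨Final.thetaForm hp2 D, ?_, ?_⟩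
  · rw [ModularFormClass.qCoeff, Final.qExpansion_coeff_thetaForm, rep_zero D hp]
    simp
  · intro k hk
    obtain ⟨r, hr⟩ := even_rep D hp k hk
    refine ⟨r, ?_⟩
    rw [ModularFormClass.qCoeff, Final.qExpansion_coeff_thetaForm, hr]
    push_cast
    ring

/-- The variant requested by the coordinator of S16. -/
theorem exists_theta' (p : ℕ) [Fact p.Prime] (hp : 5 ≤ p) :
    ∃ G : ModularForm (CongruenceSubgroup.Gamma0 p) 2,
      (qExpansion 1 G).coeff 0 = 1 ∧
      ∀ n : ℕ, 1 ≤ n → ∃ c : ℤ, (qExpansion 1 G).coeff n = 2 * (c : ℂ) :=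
  exists_theta (p := p) (by omega)

end Fermat.Agent.S16.Theta
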