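import Mathlib

/-!
# S16, theta part: definitions and formal identities

An explicit even quaternary lattice of level `p` and determinant `p ^ 2`:
`Q x = N (x0, x1) + t (x3 x0 - x2 x1) + s N (x2, x3)`, `N (u, v) = u^2 + u v + μ v^2`,
with `(4 μ - 1) s - t^2 = p`.  `B` is its Gram matrix (as a linear map), `Bd = p B⁻¹`
and `Qd` is the quadratic form with Gram matrix `Bd`.
-/

namespace Fermat.Agent.S16.Theta

section Forms

variable {R : Type*} [CommRing R]

/-- The quaternary quadratic form. -/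
def Q (μ s t : R) (x : Fin 4 → R) : R :=
  (x 0 ^ 2 + x 0 * x 1 + μ * x 1 ^ 2) + t * (x 3 * x 0 - x 2 * x 1)
    + s * (x 2 ^ 2 + x 2 * x 3 + μ * x 3 ^ 2)

/-- The rescaled dual form (Gram matrix `p B⁻¹`). -/
def Qd (μ s t : R) (x : Fin 4 → R) : R :=
  s * (μ * x 0 ^ 2 - x 0 * x 1 + x 1 ^ 2) - t * (x 0 * x 3 - x 1 * x 2)
    + (μ * x 2 ^ 2 - x 2 * x 3 + x 3 ^ 2)

/-- The Gram matrix of `Q`, as a map. -/
def B (μ s t : R) (x : Fin 4 → R) : Fin 4 → R :=
  ![2 * x 0 + x 1 + t * x 3, x 0 + 2 * μ * x 1 - t * x 2,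
    -t * x 1 + s * (2 * x 2 + x 3), t * x 0 + s * (x 2 + 2 * μ * x 3)]

/-- The Gram matrix of `Qd`, as a map. -/
def Bd (μ s t : R) (x : Fin 4 → R) : Fin 4 → R :=
  ![s * (2 * μ * x 0 - x 1) - t * x 3, s * (-x 0 + 2 * x 1) + t * x 2,
    t * x 1 + (2 * μ * x 2 - x 3), -t * x 0 + (-x 2 + 2 * x 3)]

variable (μ s t : R) (x y : Fin 4 → R)

lemma Q_add : Q μ s t (x + y) = Q μ s t x + Q μ s t y + ∑ i, x i * B μ s t y i := by
  simp only [Q, B, Fin.sum_univ_four, Pi.add_apply]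
  simp
  ring

lemma Qd_add : Qd μ s t (x + y) = Qd μ s t x + Qd μ s t y + ∑ i, x i * Bd μ s t y i := by
  simp only [Qd, Bd, Fin.sum_univ_four, Pi.add_apply]
  simp
  ring

lemma Q_smul (c : R) : Q μ s t (c • x) = c ^ 2 * Q μ s t x := by
  simp only [Q, Pi.smul_apply, smul_eq_mul]
  ring

lemma Qd_smul (c : R) : Qd μ s t (c • x) = c ^ 2 * Qd μ s t x := by
  simp only [Qd, Pi.smul_apply, smul_eq_mul]
  ring

lemma Q_neg : Q μ s t (-x) = Q μ s t x := by
  simp only [Q, Pi.neg_apply]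
  ring

lemma Qd_neg : Qd μ s t (-x) = Qd μ s t x := by
  simp only [Qd, Pi.neg_apply]
  ring

@[simp] lemma Q_zero : Q μ s t 0 = 0 := by simp [Q]

@[simp] lemma Qd_zero : Qd μ s t 0 = 0 := by simp [Qd]

lemma B_add : B μ s t (x + y) = B μ s t x + B μ s t y := by
  funext i
  fin_cases i <;> simp [B] <;> ring

lemma Bd_add : Bd μ s t (x + y) = Bd μ s t x + Bd μ s t y := by
  funext i
  fin_cases i <;> simp [Bd] <;> ring

lemma B_smul (c : R) : B μ s t (c • x) = c • B μ s t x := by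
  funext i
  fin_cases i <;> simp [B] <;> ring

lemma Bd_smul (c : R) : Bd μ s t (c • x) = c • Bd μ s t x := by
  funext i
  fin_cases i <;> simp [Bd] <;> ring

lemma B_Bd : B μ s t (Bd μ s t x) = ((4 * μ - 1) * s - t ^ 2) • x := by
  funext i
  fin_cases i <;> simp [B, Bd] <;> ring

lemma Bd_B : Bd μ s t (B μ s t x) = ((4 * μ - 1) * s - t ^ 2) • x := by
  funext i
  fin_cases i <;> simp [B, Bd] <;> ring

lemma Qd_B : Qd μ s t (B μ s t x) = ((4 * μ - 1) * s - t ^ 2) * Q μ s t x := by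
  simp [Q, Qd, B]
  ring

lemma Q_Bd : Q μ s t (Bd μ s t x) = ((4 * μ - 1) * s - t ^ 2) * Qd μ s t x := by
  simp [Q, Qd, Bd]
  ring

lemma sum_mul_B_comm : ∑ i, x i * B μ s t y i = ∑ i, y i * B μ s t x i := by
  simp only [B, Fin.sum_univ_four]
  simp
  ring

lemma sum_mul_Bd_comm : ∑ i, x i * Bd μ s t y i = ∑ i, y i * Bd μ s t x i := by
  simp only [Bd, Fin.sum_univ_four]
  simp
  ring

lemma sum_mul_B_self : ∑ i, x i * B μ s t x i = 2 * Q μ s t x := by
  simp only [B, Q, Fin.sum_univ_four]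
  simp
  ring

lemma sum_mul_Bd_self : ∑ i, x i * Bd μ s t x i = 2 * Qd μ s t x := by
  simp only [Bd, Qd, Fin.sum_univ_four]
  simp
  ring

/-- Completing the squares (denominator-free form). -/
lemma four_r_mul_Q :
    4 * (4 * μ - 1) * Q μ s t x =
      (4 * μ - 1) * (2 * x 0 + x 1 + t * x 3) ^ 2
        + ((4 * μ - 1) * x 1 - t * (2 * x 2 + x 3)) ^ 2
        + ((4 * μ - 1) * s - t ^ 2) * ((2 * x 2 + x 3) ^ 2 + (4 * μ - 1) * x 3 ^ 2) := by
  simp only [Q]
  ring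

variable {S : Type*} [CommRing S] (f : R →+* S)

lemma map_Q : f (Q μ s t x) = Q (f μ) (f s) (f t) (fun i => f (x i)) := by
  simp [Q]

lemma map_Qd : f (Qd μ s t x) = Qd (f μ) (f s) (f t) (fun i => f (x i)) := by
  simp [Qd]

lemma map_B (i : Fin 4) : f (B μ s t x i) = B (f μ) (f s) (f t) (fun i => f (x i)) i := by
  have h2 : f 2 = 2 := map_ofNat f 2
  fin_cases i <;> simp [B, h2]

lemma map_Bd (i : Fin 4) : f (Bd μ s t x i) = Bd (f μ) (f s) (f t) (fun i => f (x i)) i := by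
  have h2 : f 2 = 2 := map_ofNat f 2
  fin_cases i <;> simp [Bd, h2]

end Forms

/-- Lattice data for the prime `p`. -/
structure Data (p : ℕ) where
  /-- `N (u, v) = u^2 + u v + μ v^2` -/
  μ : ℤ
  /-- scaling of the second block -/
  s : ℤ
  /-- coupling -/
  t : ℤ
  μ_pos : 0 < μ
  s_pos : 0 < s
  det_eq : (4 * μ - 1) * s - t ^ 2 = p
  nonres : ¬ IsSquare (((-(4 * μ - 1) : ℤ)) : ZMod p)

namespace Data

variable {p : ℕ} (D : Data p)

/-- The integral form. -/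
def q (x : Fin 4 → ℤ) : ℤ := Q D.μ D.s D.t x

/-- The integral dual form (scaled by `p`). -/
def qd (x : Fin 4 → ℤ) : ℤ := Qd D.μ D.s D.t x

/-- The real form. -/
def qR (x : Fin 4 → ℝ) : ℝ := Q (D.μ : ℝ) (D.s : ℝ) (D.t : ℝ) x

/-- The real dual form (scaled by `p`). -/
def qdR (x : Fin 4 → ℝ) : ℝ := Qd (D.μ : ℝ) (D.s : ℝ) (D.t : ℝ) x

/-- The Gram map on the integral lattice. -/
def b (x : Fin 4 → ℤ) : Fin 4 → ℤ := B D.μ D.s D.t x

/-- The dual Gram map on the integral lattice. -/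
def bd (x : Fin 4 → ℤ) : Fin 4 → ℤ := Bd D.μ D.s D.t x

/-- The form over `ZMod p`. -/
def qZ (g : Fin 4 → ZMod p) : ZMod p := Q (D.μ : ZMod p) (D.s : ZMod p) (D.t : ZMod p) g

/-- The Gram map over `ZMod p`. -/
def bZ (g : Fin 4 → ZMod p) : Fin 4 → ZMod p := B (D.μ : ZMod p) (D.s : ZMod p) (D.t : ZMod p) g

/-- The dual Gram map over `ZMod p`. -/
def bdZ (g : Fin 4 → ZMod p) : Fin 4 → ZMod p :=
  Bd (D.μ : ZMod p) (D.s : ZMod p) (D.t : ZMod p) g

/-- Representation numbers of the form. -/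
noncomputable def rep (m : ℕ) : ℕ := Nat.card {x : Fin 4 → ℤ // D.q x = m}

/-- Representation numbers of the rescaled dual form. -/
noncomputable def repd (m : ℕ) : ℕ := Nat.card {x : Fin 4 → ℤ // D.qd x = m}

lemma qZ_intCast (x : Fin 4 → ℤ) : D.qZ (fun i => (x i : ZMod p)) = (D.q x : ZMod p) := by
  simpa [qZ, q] using (map_Q D.μ D.s D.t x (Int.castRingHom (ZMod p))).symm

lemma bZ_intCast (x : Fin 4 → ℤ) (i : Fin 4) :
    D.bZ (fun i => (x i : ZMod p)) i = (D.b x i : ZMod p) := by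
  simpa [bZ, b] using (map_B D.μ D.s D.t x (Int.castRingHom (ZMod p)) i).symm

lemma bdZ_intCast (x : Fin 4 → ℤ) (i : Fin 4) :
    D.bdZ (fun i => (x i : ZMod p)) i = (D.bd x i : ZMod p) := by
  simpa [bdZ, bd] using (map_Bd D.μ D.s D.t x (Int.castRingHom (ZMod p)) i).symm

lemma det_eq_zmod : (4 * (D.μ : ZMod p) - 1) * (D.s : ZMod p) - (D.t : ZMod p) ^ 2 = 0 := by
  have h := congrArg (Int.cast : ℤ → ZMod p) D.det_eq
  push_cast at h
  simpa using h

lemma det_eq_real : (4 * (D.μ : ℝ) - 1) * (D.s : ℝ) - (D.t : ℝ) ^ 2 = p := by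
  have h := congrArg (Int.cast : ℤ → ℝ) D.det_eq
  push_cast at h
  simpa using h

lemma qR_intCast (x : Fin 4 → ℤ) : D.qR (fun i => (x i : ℝ)) = (D.q x : ℝ) := by
  simpa [qR, q] using (map_Q D.μ D.s D.t x (Int.castRingHom ℝ)).symm

lemma qdR_intCast (x : Fin 4 → ℤ) : D.qdR (fun i => (x i : ℝ)) = (D.qd x : ℝ) := by
  simpa [qdR, qd] using (map_Qd D.μ D.s D.t x (Int.castRingHom ℝ)).symm

end Data

/-- Pairs (quadratic form, dual form, determinant) on `ℝ ^ n` built by successive completion of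
squares; the class of forms for which Gaussian Poisson summation is proved by induction. -/
inductive GaussPair : (n : ℕ) → ((Fin n → ℝ) → ℝ) → ((Fin n → ℝ) → ℝ) → ℝ → Prop
  | zero : GaussPair 0 (fun _ => 0) (fun _ => 0) 1
  | succ {n : ℕ} {Q Qd : (Fin n → ℝ) → ℝ} {D : ℝ} (α : ℝ) (hα : 0 < α) (u : Fin n → ℝ)
      (h : GaussPair n Q Qd D) :
      GaussPair (n + 1)
        (fun x => α * (x 0 + ∑ i, u i * x i.succ) ^ 2 + Q (fun i => x i.succ))
        (fun c => c 0 ^ 2 / α + Qd (fun i => c i.succ - c 0 * u i))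
        (α * D)

open Complex in
/-- The theta series of the lattice, as a function on `ℂ` (meaningful for `0 < z.im`). -/
noncomputable def thetaC {p : ℕ} (D : Data p) (z : ℂ) : ℂ :=
  ∑' x : Fin 4 → ℤ, cexp (2 * Real.pi * I * (D.q x : ℂ) * z)

open Complex in
/-- The theta series of the rescaled dual lattice. -/
noncomputable def thetaDualC {p : ℕ} (D : Data p) (z : ℂ) : ℂ :=
  ∑' x : Fin 4 → ℤ, cexp (2 * Real.pi * I * (D.qd x : ℂ) * z)

/-- The theta series on the upper half plane. -/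
noncomputable def theta {p : ℕ} (D : Data p) (τ : UpperHalfPlane) : ℂ := thetaC D (τ : ℂ)

end Fermat.Agent.S16.Theta
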