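import Mathlib

/-!
# Poisson summation for Gaussians on `ℤ^n` (triangular induction)

A positive definite quadratic form in `n` variables is presented in triangular (LDL) shape,
`F(x) = α (x₀ + β · x')² + S(x')`.  We prove the theta inversion formula for `F` with a complex
shift `u` and a complex linear term `b` by induction on `n`, from the one-variable formula
`Complex.tsum_exp_neg_quadratic`.
-/

set_option autoImplicit false

namespace Fermat.Agent.S16.Theta

open Complex Real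

noncomputable section

/-! ## One-variable uniform bound -/

lemma ub_one_real {A : ℝ} (hA : 0 < A) (B : ℝ) :
    ∃ K : ℝ, 0 ≤ K ∧ ∀ τ : ℝ, Summable (fun k : ℤ => rexp (-A * ((k : ℝ) + τ) ^ 2 + B * ((k : ℝ) + τ))) ∧
      ∑' k : ℤ, rexp (-A * ((k : ℝ) + τ) ^ 2 + B * ((k : ℝ) + τ)) ≤ K := by
  set g : ℤ → ℝ := fun k => rexp (A + |B|) * rexp (-π * (A / (2 * π) * (k : ℝ) ^ 2 -
      2 * (|B| / (2 * π)) * |(k : ℝ)|)) with hg
  have hgs : Summable g := by
    have h := summable_pow_mul_jacobiTheta₂_term_bound (|B| / (2 * π))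
      (T := A / (2 * π)) (by positivity) 0
    simp only [pow_zero, one_mul, Int.cast_abs] at h
    exact h.mul_left _
  have key : ∀ τ : ℝ, 0 ≤ τ → τ < 1 → ∀ k : ℤ,
      rexp (-A * ((k : ℝ) + τ) ^ 2 + B * ((k : ℝ) + τ)) ≤ g k := by
    intro τ h0 h1 k
    rw [hg]
    simp only
    rw [← Real.exp_add]
    apply Real.exp_le_exp.mpr
    have hpi : π ≠ 0 := Real.pi_ne_zero
    have e1 : -π * (A / (2 * π) * (k : ℝ) ^ 2 - 2 * (|B| / (2 * π)) * |(k : ℝ)|) =
        -(A / 2) * (k : ℝ) ^ 2 + |B| * |(k : ℝ)| := by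
      field_simp
      ring
    rw [e1]
    have h2 : B * ((k : ℝ) + τ) ≤ |B| * (|(k : ℝ)| + 1) := by
      calc B * ((k : ℝ) + τ) ≤ |B * ((k : ℝ) + τ)| := le_abs_self _
        _ = |B| * |(k : ℝ) + τ| := abs_mul _ _
        _ ≤ |B| * (|(k : ℝ)| + 1) := by
          apply mul_le_mul_of_nonneg_left _ (abs_nonneg _)
          calc |(k : ℝ) + τ| ≤ |(k : ℝ)| + |τ| := abs_add_le _ _
            _ ≤ |(k : ℝ)| + 1 := by rw [abs_of_nonneg h0]; linarith
    have h3 : (k : ℝ) ^ 2 / 2 - 1 ≤ ((k : ℝ) + τ) ^ 2 := by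
      nlinarith [sq_nonneg ((k : ℝ) + 2 * τ), mul_self_nonneg τ]
    nlinarith
  refine ⟨∑' k, g k, tsum_nonneg fun k => by positivity, fun τ => ?_⟩
  have hfr : ∀ k : ℤ, rexp (-A * ((k : ℝ) + τ) ^ 2 + B * ((k : ℝ) + τ)) =
      (fun m : ℤ => rexp (-A * ((m : ℝ) + Int.fract τ) ^ 2 + B * ((m : ℝ) + Int.fract τ)))
        (Equiv.addRight ⌊τ⌋ k) := by
    intro k
    have : (((Equiv.addRight ⌊τ⌋ k : ℤ)) : ℝ) + Int.fract τ = (k : ℝ) + τ := by
      simp only [Equiv.coe_addRight, Int.cast_add]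
      have := Int.floor_add_fract τ
      linarith
    simp only [this]
  have hs0 : Summable (fun m : ℤ =>
      rexp (-A * ((m : ℝ) + Int.fract τ) ^ 2 + B * ((m : ℝ) + Int.fract τ))) :=
    Summable.of_nonneg_of_le (fun _ => (Real.exp_pos _).le)
      (key _ (Int.fract_nonneg τ) (Int.fract_lt_one τ)) hgs
  constructor
  · simp_rw [hfr]
    exact (Equiv.summable_iff (Equiv.addRight ⌊τ⌋)).mpr hs0
  · simp_rw [hfr]
    rw [(Equiv.addRight ⌊τ⌋).tsum_eq (fun m : ℤ =>
      rexp (-A * ((m : ℝ) + Int.fract τ) ^ 2 + B * ((m : ℝ) + Int.fract τ)))]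
    exact hs0.tsum_le_tsum (key _ (Int.fract_nonneg τ) (Int.fract_lt_one τ)) hgs


/-- uniform summability of a function of one real variable over all translates of `ℤ`. -/
def UB1 (φ : ℝ → ℝ) : Prop :=
  ∃ K : ℝ, 0 ≤ K ∧ ∀ τ : ℝ, Summable (fun k : ℤ => φ ((k : ℝ) + τ)) ∧
    ∑' k : ℤ, φ ((k : ℝ) + τ) ≤ K

/-- uniform summability of a function of `n` real variables over all translates of `ℤ^n`. -/
def UB {n : ℕ} (φ : (Fin n → ℝ) → ℝ) : Prop :=
  ∃ K : ℝ, 0 ≤ K ∧ ∀ t : Fin n → ℝ,
    Summable (fun x : Fin n → ℤ => φ (fun i => (x i : ℝ) + t i)) ∧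
    ∑' x : Fin n → ℤ, φ (fun i => (x i : ℝ) + t i) ≤ K

lemma ub_one {w : ℂ} (hw : 0 < w.re) (ζ b : ℂ) :
    UB1 (fun s : ℝ => ‖cexp (-w * ((s : ℂ) + ζ) ^ 2 + b * (s : ℂ))‖) := by
  obtain ⟨K, hK, h⟩ := ub_one_real hw (b - 2 * w * ζ).re
  have e : ∀ s : ℝ, ‖cexp (-w * ((s : ℂ) + ζ) ^ 2 + b * (s : ℂ))‖ =
      rexp ((-w * ζ ^ 2).re) * rexp (-w.re * s ^ 2 + (b - 2 * w * ζ).re * s) := by
    intro s
    rw [Complex.norm_exp, ← Real.exp_add]
    congr 1
    have : -w * ((s : ℂ) + ζ) ^ 2 + b * (s : ℂ) =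
        (-w * ζ ^ 2) + (-(((s ^ 2 : ℝ) : ℂ) * w) + ((s : ℝ) : ℂ) * (b - 2 * w * ζ)) := by
      push_cast; ring
    rw [this, Complex.add_re, Complex.add_re, Complex.neg_re, Complex.re_ofReal_mul,
      Complex.re_ofReal_mul]
    ring
  refine ⟨rexp ((-w * ζ ^ 2).re) * K, by positivity, fun τ => ?_⟩
  simp_rw [e]
  refine ⟨(h τ).1.mul_left _, ?_⟩
  rw [tsum_mul_left]
  exact mul_le_mul_of_nonneg_left (h τ).2 (Real.exp_pos _).le

lemma summable_skew {X Y : Type*} {f : X × Y → ℝ} (hf : ∀ p, 0 ≤ f p) {g : X → ℝ} {K : ℝ}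
    (h1 : ∀ x, Summable (fun y => f (x, y))) (h2 : ∀ x, ∑' y, f (x, y) ≤ K * g x)
    (hg : Summable g) : Summable f ∧ ∑' p, f p ≤ K * ∑' x, g x := by
  have hs2 : Summable (fun x => ∑' y, f (x, y)) :=
    Summable.of_nonneg_of_le (fun x => tsum_nonneg fun y => hf _) h2 (hg.mul_left K)
  have hs : Summable f := (summable_prod_of_nonneg hf).mpr ⟨h1, hs2⟩
  refine ⟨hs, ?_⟩
  rw [hs.tsum_prod' h1, ← tsum_mul_left]
  exact hs2.tsum_le_tsum h2 (hg.mul_left K)

/-- the reindexing `(x', x₀) ↦ cons x₀ x'`. -/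
def consE (n : ℕ) : (Fin n → ℤ) × ℤ ≃ (Fin (n + 1) → ℤ) :=
  (Equiv.prodComm _ _).trans (Fin.consEquiv (fun _ : Fin (n + 1) => ℤ))

/-- the reindexing `(x₀, x') ↦ cons x₀ x'`. -/
def consE' (n : ℕ) : ℤ × (Fin n → ℤ) ≃ (Fin (n + 1) → ℤ) :=
  Fin.consEquiv (fun _ : Fin (n + 1) => ℤ)

@[simp] lemma consE_zero (n : ℕ) (p : (Fin n → ℤ) × ℤ) : consE n p 0 = p.2 := rfl
@[simp] lemma consE_succ (n : ℕ) (p : (Fin n → ℤ) × ℤ) (j : Fin n) :
    consE n p j.succ = p.1 j := rfl
@[simp] lemma consE'_zero (n : ℕ) (p : ℤ × (Fin n → ℤ)) : consE' n p 0 = p.1 := rfl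
@[simp] lemma consE'_succ (n : ℕ) (p : ℤ × (Fin n → ℤ)) (j : Fin n) :
    consE' n p j.succ = p.2 j := rfl

lemma UB_cons_eval {n : ℕ} {φ1 : ℝ → ℝ} {φS : (Fin n → ℝ) → ℝ} (h1 : UB1 φ1) (hS : UB φS)
    (p1 : ∀ s, 0 ≤ φ1 s) (pS : ∀ y, 0 ≤ φS y) (lam : (Fin n → ℝ) → ℝ) :
    UB (fun y : Fin (n + 1) → ℝ => φ1 (y 0 + lam (fun j => y j.succ)) * φS (fun j => y j.succ)) := by
  obtain ⟨K1, hK1, H1⟩ := h1
  obtain ⟨KS, hKS, HS⟩ := hS
  refine ⟨K1 * KS, by positivity, fun t => ?_⟩
  have key := summable_skew (X := Fin n → ℤ) (Y := ℤ)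
    (f := fun p => φ1 ((p.2 : ℝ) + t 0 + lam (fun j => (p.1 j : ℝ) + t j.succ)) *
      φS (fun j => (p.1 j : ℝ) + t j.succ))
    (fun p => mul_nonneg (p1 _) (pS _))
    (g := fun x' => φS (fun j => (x' j : ℝ) + t j.succ)) (K := K1)
    (fun x' => by
      simp only [add_assoc]
      exact ((H1 _).1).mul_right _)
    (fun x' => by
      simp only [add_assoc]
      rw [tsum_mul_right]
      exact mul_le_mul_of_nonneg_right (H1 _).2 (pS _))
    (HS _).1
  constructor
  · rw [← (consE n).summable_iff]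
    exact key.1
  · rw [← (consE n).tsum_eq]
    exact key.2.trans (mul_le_mul_of_nonneg_left (HS _).2 hK1)

lemma UB_cons_dual {n : ℕ} {φ1 : ℝ → ℝ} {φS : (Fin n → ℝ) → ℝ} (h1 : UB1 φ1) (hS : UB φS)
    (p1 : ∀ s, 0 ≤ φ1 s) (pS : ∀ y, 0 ≤ φS y) (β : Fin n → ℝ) :
    UB (fun y : Fin (n + 1) → ℝ => φ1 (y 0) * φS (fun j => y j.succ - y 0 * β j)) := by
  obtain ⟨K1, hK1, H1⟩ := h1
  obtain ⟨KS, hKS, HS⟩ := hS
  refine ⟨KS * K1, by positivity, fun t => ?_⟩
  have key := summable_skew (X := ℤ) (Y := Fin n → ℤ)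
    (f := fun p => φ1 ((p.1 : ℝ) + t 0) *
      φS (fun j => (p.2 j : ℝ) + t j.succ - ((p.1 : ℝ) + t 0) * β j))
    (fun p => mul_nonneg (p1 _) (pS _))
    (g := fun x0 => φ1 ((x0 : ℝ) + t 0)) (K := KS)
    (fun x0 => by
      simp only [add_sub_assoc]
      exact ((HS _).1).mul_left _)
    (fun x0 => by
      simp only [add_sub_assoc]
      rw [tsum_mul_left, mul_comm]
      exact mul_le_mul_of_nonneg_right (HS _).2 (p1 _))
    (H1 _).1
  constructor
  · rw [← (consE' n).summable_iff]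
    exact key.1
  · rw [← (consE' n).tsum_eq]
    exact key.2.trans (mul_le_mul_of_nonneg_left (H1 _).2 hKS)


/-! ## Triangular forms -/

/-- A quadratic form in `n` variables in triangular shape:
`cons α β S` is `α (x₀ + β · x')² + S(x')`. -/
inductive TriForm : ℕ → Type
  | nil : TriForm 0
  | cons {n : ℕ} (α : ℝ) (β : Fin n → ℝ) (S : TriForm n) : TriForm (n + 1)

namespace TriForm

/-- value of the form on a complex vector. -/
def eval : {n : ℕ} → TriForm n → (Fin n → ℂ) → ℂ
  | _, .nil, _ => 0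
  | _, .cons α β S, x =>
      (α : ℂ) * (x 0 + ∑ j, (β j : ℂ) * x j.succ) ^ 2 + S.eval (fun j => x j.succ)

/-- value of the dual (inverse) form on a complex vector. -/
def dual : {n : ℕ} → TriForm n → (Fin n → ℂ) → ℂ
  | _, .nil, _ => 0
  | _, .cons α β S, η =>
      (η 0) ^ 2 / (α : ℂ) + S.dual (fun j => η j.succ - η 0 * (β j : ℂ))

/-- positivity of all the pivots. -/
def Pos : {n : ℕ} → TriForm n → Prop
  | _, .nil => True
  | _, .cons α _ S => 0 < α ∧ S.Pos

/-- the determinant (product of the pivots). -/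
def det : {n : ℕ} → TriForm n → ℝ
  | _, .nil => 1
  | _, .cons α _ S => α * S.det

/-- the normalising constant `∏ (a αᵢ)^(1/2)`. -/
def nrm : {n : ℕ} → TriForm n → ℂ → ℂ
  | _, .nil, _ => 1
  | _, .cons α _ S, a => (a * (α : ℂ)) ^ (1 / 2 : ℂ) * S.nrm a

lemma det_pos : ∀ {n : ℕ} (F : TriForm n), F.Pos → 0 < F.det
  | _, .nil, _ => one_pos
  | _, .cons _ _ S, h => mul_pos h.1 (det_pos S h.2)

lemma UB_eval : ∀ {n : ℕ} (F : TriForm n), F.Pos → ∀ {w : ℂ}, 0 < w.re → ∀ (z b : Fin n → ℂ),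
    UB (fun y : Fin n → ℝ =>
      ‖cexp (-w * F.eval (fun i => (y i : ℂ) + z i) + ∑ i, b i * (y i : ℂ))‖)
  | _, .nil, _, w, _, z, b => by
      refine ⟨1, zero_le_one, fun t => ?_⟩
      simp [eval]
      exact (hasSum_unique _).summable
  | _, .cons (n := n) α β S, h, w, hw, z, b => by
      have hw' : 0 < (w * (α : ℂ)).re := by
        rw [mul_comm, Complex.re_ofReal_mul]; exact mul_pos h.1 hw
      have h1 := ub_one hw' (z 0 + ∑ j, (β j : ℂ) * z j.succ) (b 0)
      have hS := UB_eval S h.2 hw (fun j => z j.succ) (fun j => b j.succ - b 0 * (β j : ℂ))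
      have := UB_cons_eval h1 hS (fun _ => norm_nonneg _) (fun _ => norm_nonneg _)
        (fun y' => ∑ j, β j * y' j)
      convert this using 2 with y
      rw [← norm_mul, ← Complex.exp_add]
      congr 2
      simp only [eval, Fin.sum_univ_succ (fun i => b i * (y i : ℂ)), mul_add, sub_mul,
        Finset.sum_add_distrib, Finset.sum_sub_distrib]
      push_cast
      simp only [mul_assoc, ← Finset.mul_sum]
      ring

lemma UB_dual : ∀ {n : ℕ} (F : TriForm n), F.Pos → ∀ {w : ℂ}, 0 < w.re → ∀ (z c : Fin n → ℂ),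
    UB (fun y : Fin n → ℝ =>
      ‖cexp (-w * F.dual (fun i => (y i : ℂ) + z i) + ∑ i, c i * (y i : ℂ))‖)
  | _, .nil, _, w, _, z, b => by
      refine ⟨1, zero_le_one, fun t => ?_⟩
      simp [dual]
      exact (hasSum_unique _).summable
  | _, .cons (n := n) α β S, h, w, hw, z, c => by
      have hα : (α : ℂ) ≠ 0 := by exact_mod_cast h.1.ne'
      have hw' : 0 < (w / (α : ℂ)).re := by
        rw [Complex.div_ofReal_re]; exact div_pos hw h.1
      have h1 := ub_one hw' (z 0) (c 0 + ∑ j, c j.succ * (β j : ℂ))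
      have hS := UB_dual S h.2 hw (fun j => z j.succ - z 0 * (β j : ℂ)) (fun j => c j.succ)
      have := UB_cons_dual h1 hS (fun _ => norm_nonneg _) (fun _ => norm_nonneg _) β
      convert this using 2 with y
      rw [← norm_mul, ← Complex.exp_add]
      congr 2
      have e1 : (fun j : Fin n => (y j.succ : ℂ) + z j.succ - ((y 0 : ℂ) + z 0) * (β j : ℂ)) =
          fun j => ((y j.succ - y 0 * β j : ℝ) : ℂ) + (z j.succ - z 0 * (β j : ℂ)) := by
        funext j; push_cast; ring
      simp only [dual, Fin.sum_univ_succ (fun i => c i * (y i : ℂ)), e1]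
      push_cast
      simp only [mul_sub, Finset.sum_sub_distrib, add_mul, Finset.sum_mul]
      have e2 : ∀ j : Fin n, c j.succ * ((y 0 : ℂ) * (β j : ℂ)) = c j.succ * (β j : ℂ) * (y 0 : ℂ) :=
        fun j => by ring
      simp only [e2]
      field_simp
      ring


end TriForm

/-- one-variable Poisson summation for a Gaussian with shift `σ` and linear term `b`. -/
lemma poisson_one {a : ℂ} (ha : 0 < a.re) (σ b : ℂ) :
    ∑' k : ℤ, cexp (-π * a * ((k : ℂ) + σ) ^ 2 + 2 * π * b * k) =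
      1 / a ^ (1 / 2 : ℂ) *
        ∑' m : ℤ, cexp (-π / a * ((m : ℂ) + I * b) ^ 2 + 2 * π * I * ((m : ℂ) + I * b) * σ) := by
  have ha0 : a ≠ 0 := by
    rintro rfl; simp at ha
  have h := Complex.tsum_exp_neg_quadratic ha (b - a * σ)
  have e1 : ∀ k : ℤ, cexp (-π * a * ((k : ℂ) + σ) ^ 2 + 2 * π * b * k) =
      cexp (-π * a * σ ^ 2) * cexp (-π * a * (k : ℂ) ^ 2 + 2 * π * (b - a * σ) * k) := by
    intro k
    rw [← Complex.exp_add]
    congr 1
    ring
  have e2 : ∀ m : ℤ, cexp (-π / a * ((m : ℂ) + I * b) ^ 2 + 2 * π * I * ((m : ℂ) + I * b) * σ) =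
      cexp (-π * a * σ ^ 2) * cexp (-π / a * ((m : ℂ) + I * (b - a * σ)) ^ 2) := by
    intro m
    rw [← Complex.exp_add]
    congr 1
    field_simp
    ring_nf
    simp only [Complex.I_sq]
    ring
  simp_rw [e1, e2, tsum_mul_left, h]
  ring

namespace TriForm

/-- summability of the left-hand side of the Poisson formula. -/
lemma summable_eval {n : ℕ} (F : TriForm n) (hF : F.Pos) {a : ℂ} (ha : 0 < a.re)
    (u b : Fin n → ℂ) :
    Summable (fun x : Fin n → ℤ =>
      cexp (-π * a * F.eval (fun i => (x i : ℂ) + u i) + 2 * π * ∑ i, b i * (x i : ℂ))) := by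
  have hw : 0 < ((π : ℂ) * a).re := by
    rw [Complex.re_ofReal_mul]; exact mul_pos Real.pi_pos ha
  obtain ⟨K, -, h⟩ := UB_eval F hF hw u (fun i => 2 * π * b i)
  have := (h 0).1
  apply Summable.of_norm
  refine this.congr (fun x => ?_)
  simp only [Pi.zero_apply, add_zero, Complex.ofReal_intCast, Finset.mul_sum, mul_assoc, neg_mul]

/-- summability of the right-hand side of the Poisson formula. -/
lemma summable_dual {n : ℕ} (F : TriForm n) (hF : F.Pos) {a : ℂ} (ha : 0 < a.re)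
    (u b : Fin n → ℂ) :
    Summable (fun ξ : Fin n → ℤ =>
      cexp (-π / a * F.dual (fun i => (ξ i : ℂ) + I * b i) +
        2 * π * I * ∑ i, ((ξ i : ℂ) + I * b i) * u i)) := by
  have hw : 0 < ((π : ℂ) / a).re := by
    rw [div_eq_mul_inv, Complex.re_ofReal_mul, Complex.inv_re]
    refine mul_pos Real.pi_pos (div_pos ha <| Complex.normSq_pos.mpr ?_)
    rintro rfl; simp at ha
  obtain ⟨K, -, h⟩ := UB_dual F hF hw (fun i => I * b i) (fun i => 2 * π * I * u i)
  have := ((h 0).1).mul_left ‖cexp (2 * π * I * ∑ i, (I * b i) * u i)‖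
  apply Summable.of_norm
  refine this.congr (fun ξ => ?_)
  rw [← norm_mul, ← Complex.exp_add]
  congr 2
  simp only [Pi.zero_apply, add_zero, Complex.ofReal_intCast, add_mul, Finset.sum_add_distrib,
    Finset.mul_sum]
  have : ∀ i : Fin n, 2 * π * I * ((ξ i : ℂ) * u i) = 2 * π * I * u i * (ξ i : ℂ) := fun i => by ring
  rw [mul_add, Finset.mul_sum, Finset.mul_sum]
  simp only [this]
  ring


/-- **Poisson summation** for a Gaussian attached to a triangular positive definite form, with a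
complex shift `u` and a complex linear term `b`. -/
theorem poisson : ∀ {n : ℕ} (F : TriForm n), F.Pos → ∀ {a : ℂ}, 0 < a.re → ∀ (u b : Fin n → ℂ),
    ∑' x : Fin n → ℤ,
      cexp (-π * a * F.eval (fun i => (x i : ℂ) + u i) + 2 * π * ∑ i, b i * (x i : ℂ)) =
    1 / F.nrm a * ∑' ξ : Fin n → ℤ,
      cexp (-π / a * F.dual (fun i => (ξ i : ℂ) + I * b i) +
        2 * π * I * ∑ i, ((ξ i : ℂ) + I * b i) * u i)
  | _, .nil, _, a, _, u, b => by
      simp [eval, dual, nrm]
  | _, .cons (n := n) α β S, h, a, ha, u, b => by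
      have hα : (α : ℂ) ≠ 0 := by exact_mod_cast h.1.ne'
      have ha0 : a ≠ 0 := by rintro rfl; simp at ha
      have haα : 0 < (a * (α : ℂ)).re := by
        rw [mul_comm, Complex.re_ofReal_mul]; exact mul_pos h.1 ha
      -- notation
      set U : ℂ := u 0 + ∑ j, (β j : ℂ) * u j.succ with hU
      set P : (Fin n → ℤ) → ℂ := fun x' => ∑ j, (β j : ℂ) * (x' j : ℂ) with hP
      set G2 : (Fin n → ℤ) → ℂ := fun x' =>
        cexp (-π * a * S.eval (fun j => (x' j : ℂ) + u j.succ) +
          2 * π * ∑ j, b j.succ * (x' j : ℂ)) with hG2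
      set g1 : ℤ → ℂ := fun m =>
        cexp (-π / (a * α) * ((m : ℂ) + I * b 0) ^ 2 + 2 * π * I * ((m : ℂ) + I * b 0) * U) with hg1
      -- Step 1: split off the first variable
      have hsumL := summable_eval (.cons α β S) h ha u b
      have hsumL' := (consE n).summable_iff.mpr hsumL
      have hf : ∀ (x' : Fin n → ℤ) (x0 : ℤ),
          cexp (-π * a * (TriForm.cons α β S).eval (fun i => (consE n (x', x0) i : ℂ) + u i) +
            2 * π * ∑ i, b i * (consE n (x', x0) i : ℂ)) =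
          G2 x' * cexp (-π * (a * α) * ((x0 : ℂ) + (U + P x')) ^ 2 + 2 * π * b 0 * x0) := by
        intro x' x0
        rw [hG2]
        simp only
        rw [← Complex.exp_add]
        congr 1
        simp only [eval, Fin.sum_univ_succ (fun i => b i * (consE n (x', x0) i : ℂ)), consE_zero,
          consE_succ, mul_add, Finset.sum_add_distrib, hU, hP]
        ring
      have step1 : ∑' x : Fin (n + 1) → ℤ,
          cexp (-π * a * (TriForm.cons α β S).eval (fun i => (x i : ℂ) + u i) +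
            2 * π * ∑ i, b i * (x i : ℂ)) =
          ∑' x' : Fin n → ℤ, ∑' x0 : ℤ,
            G2 x' * cexp (-π * (a * α) * ((x0 : ℂ) + (U + P x')) ^ 2 + 2 * π * b 0 * x0) := by
        rw [← (consE n).tsum_eq]
        refine (hsumL'.tsum_prod).trans ?_
        simp only [Function.comp_apply, hf]
      -- Step 2: Poisson in the first variable
      have step2 : ∀ x' : Fin n → ℤ, ∑' x0 : ℤ,
            G2 x' * cexp (-π * (a * α) * ((x0 : ℂ) + (U + P x')) ^ 2 + 2 * π * b 0 * x0) =
          1 / (a * α) ^ (1 / 2 : ℂ) * ∑' m : ℤ, G2 x' *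
            cexp (-π / (a * α) * ((m : ℂ) + I * b 0) ^ 2 +
              2 * π * I * ((m : ℂ) + I * b 0) * (U + P x')) := by
        intro x'
        rw [tsum_mul_left, poisson_one haα, tsum_mul_left]
        ring
      -- Step 3: exchange the two summations
      have hcross : ∀ (x' : Fin n → ℤ) (m : ℤ), G2 x' *
            cexp (-π / (a * α) * ((m : ℂ) + I * b 0) ^ 2 +
              2 * π * I * ((m : ℂ) + I * b 0) * (U + P x')) =
          g1 m * cexp (-π * a * S.eval (fun j => (x' j : ℂ) + u j.succ) +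
            2 * π * ∑ j, (b j.succ + I * ((m : ℂ) + I * b 0) * (β j : ℂ)) * (x' j : ℂ)) := by
        intro x' m
        rw [hG2, hg1]
        simp only
        rw [← Complex.exp_add, ← Complex.exp_add]
        congr 1
        simp only [add_mul, Finset.sum_add_distrib, hP, mul_assoc, ← Finset.mul_sum]
        ring
      have hg1s : Summable (fun m : ℤ => ‖g1 m‖) := by
        have hw' : 0 < ((π : ℂ) / (a * α)).re := by
          rw [div_eq_mul_inv, Complex.re_ofReal_mul, Complex.inv_re]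
          refine mul_pos Real.pi_pos (div_pos haα <| Complex.normSq_pos.mpr ?_)
          exact mul_ne_zero ha0 hα
        obtain ⟨K, -, hK⟩ := ub_one hw' (I * b 0) (2 * π * I * U)
        have := ((hK 0).1).mul_left ‖cexp (2 * π * I * (I * b 0) * U)‖
        refine this.congr (fun m => ?_)
        rw [← norm_mul, ← Complex.exp_add, hg1]
        congr 2
        simp only [add_zero, Complex.ofReal_intCast]
        ring
      have hg2s : Summable (fun x' : Fin n → ℤ =>
          ‖cexp (-π * a * S.eval (fun j => (x' j : ℂ) + u j.succ) +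
            2 * π * ∑ j, (b j.succ - b 0 * (β j : ℂ)) * (x' j : ℂ))‖) :=
        (summable_eval S h.2 ha (fun j => u j.succ) (fun j => b j.succ - b 0 * (β j : ℂ))).norm
      have hgs : Summable (Function.uncurry fun (x' : Fin n → ℤ) (m : ℤ) => G2 x' *
            cexp (-π / (a * α) * ((m : ℂ) + I * b 0) ^ 2 +
              2 * π * I * ((m : ℂ) + I * b 0) * (U + P x'))) := by
        apply Summable.of_norm
        refine (hg2s.mul_of_nonneg hg1s (fun _ => norm_nonneg _) (fun _ => norm_nonneg _)).congr ?_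
        rintro ⟨x', m⟩
        simp only [Function.uncurry_apply_pair]
        rw [hcross, mul_comm ‖cexp _‖ ‖g1 m‖, norm_mul]
        congr 1
        have hre : ‖cexp ((((2 * π * m * ∑ j, β j * (x' j : ℝ) : ℝ)) : ℂ) * I)‖ = 1 :=
          Complex.norm_exp_ofReal_mul_I _
        rw [← mul_one ‖cexp (-π * a * S.eval (fun j => (x' j : ℂ) + u j.succ) +
            2 * π * ∑ j, (b j.succ - b 0 * (β j : ℂ)) * (x' j : ℂ))‖, ← hre, ← norm_mul,
            ← Complex.exp_add]
        congr 2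
        push_cast
        simp only [add_mul, sub_mul, Finset.sum_add_distrib, Finset.sum_sub_distrib, mul_assoc,
          ← Finset.mul_sum, mul_add]
        ring_nf
        simp only [Complex.I_sq]
        ring
      -- Step 4: induction hypothesis
      have step4 : ∀ m : ℤ, ∑' x' : Fin n → ℤ, G2 x' *
            cexp (-π / (a * α) * ((m : ℂ) + I * b 0) ^ 2 +
              2 * π * I * ((m : ℂ) + I * b 0) * (U + P x')) =
          1 / S.nrm a * ∑' ξ' : Fin n → ℤ,
            cexp (-π / a * (TriForm.cons α β S).dual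
                (fun i => (consE' n (m, ξ') i : ℂ) + I * b i) +
              2 * π * I * ∑ i, ((consE' n (m, ξ') i : ℂ) + I * b i) * u i) := by
        intro m
        simp only [hcross]
        rw [tsum_mul_left, poisson S h.2 ha, ← mul_assoc, mul_comm (g1 m), mul_assoc,
          ← tsum_mul_left]
        congr 2
        funext ξ'
        rw [hg1]
        simp only
        rw [← Complex.exp_add]
        congr 1
        have e1 : (fun j : Fin n => (ξ' j : ℂ) + I * (b j.succ + I * ((m : ℂ) + I * b 0) * (β j : ℂ))) =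
            fun j => (ξ' j : ℂ) + I * b j.succ - ((m : ℂ) + I * b 0) * (β j : ℂ) := by
          funext j
          ring_nf
          simp only [Complex.I_sq, Complex.I_pow_three]
          ring
        simp only [dual, Fin.sum_univ_succ (fun i => ((consE' n (m, ξ') i : ℂ) + I * b i) * u i),
          consE'_zero, consE'_succ]
        rw [e1]
        have e2 : ∑ j : Fin n, ((ξ' j : ℂ) + I * (b j.succ + I * ((m : ℂ) + I * b 0) * (β j : ℂ))) *
              u j.succ =
            ∑ j : Fin n, ((ξ' j : ℂ) + I * b j.succ) * u j.succ -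
              ((m : ℂ) + I * b 0) * ∑ j, (β j : ℂ) * u j.succ := by
          rw [Finset.mul_sum, ← Finset.sum_sub_distrib]
          refine Finset.sum_congr rfl (fun j _ => ?_)
          have := congrFun e1 j
          rw [this]
          ring
        rw [e2, hU]
        field_simp
        ring
      -- Step 5: reassemble
      have hsumR := summable_dual (.cons α β S) h ha u b
      have hsumR' := (consE' n).summable_iff.mpr hsumR
      rw [step1]
      simp only [step2]
      rw [tsum_mul_left, ← Summable.tsum_comm hgs]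
      simp only [step4]
      rw [tsum_mul_left, ← (consE' n).tsum_eq]
      have := hsumR'.tsum_prod
      simp only [Function.comp_apply] at this
      rw [this]
      simp only [nrm]
      field_simp


lemma mul_ofReal_cpow_half {a : ℂ} (ha : a ≠ 0) {α : ℝ} (hα : 0 < α) :
    (a * (α : ℂ)) ^ (1 / 2 : ℂ) = a ^ (1 / 2 : ℂ) * ((√α : ℝ) : ℂ) := by
  have hα' : (α : ℂ) ≠ 0 := by exact_mod_cast hα.ne'
  rw [Complex.cpow_def_of_ne_zero (mul_ne_zero ha hα'), Complex.cpow_def_of_ne_zero ha,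
    Complex.log_mul_ofReal α hα a ha, add_mul, Complex.exp_add, mul_comm]
  congr 1
  rw [Real.sqrt_eq_rpow, Real.rpow_def_of_pos hα]
  push_cast
  rfl

lemma nrm_eq : ∀ {n : ℕ} (F : TriForm n), F.Pos → ∀ {a : ℂ}, a ≠ 0 →
    F.nrm a = (a ^ (1 / 2 : ℂ)) ^ n * ((√F.det : ℝ) : ℂ)
  | _, .nil, _, a, _ => by simp [nrm, det]
  | _, .cons α β S, h, a, ha => by
      simp only [nrm, det]
      rw [nrm_eq S h.2 ha, mul_ofReal_cpow_half ha h.1, Real.sqrt_mul h.1.le]
      push_cast
      ring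

lemma eval_neg : ∀ {n : ℕ} (F : TriForm n) (x : Fin n → ℂ), F.eval (fun i => -x i) = F.eval x
  | _, .nil, _ => rfl
  | _, .cons α β S, x => by
      simp only [eval]
      rw [eval_neg S (fun j => x j.succ)]
      simp only [mul_neg, Finset.sum_neg_distrib]
      ring

lemma dual_neg : ∀ {n : ℕ} (F : TriForm n) (x : Fin n → ℂ), F.dual (fun i => -x i) = F.dual x
  | _, .nil, _ => rfl
  | _, .cons α β S, x => by
      simp only [dual]
      rw [← dual_neg S (fun j => x j.succ - x 0 * (β j : ℂ))]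
      congr 2
      · ring
      · funext j; ring

end TriForm

end

end Fermat.Agent.S16.Theta
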