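import Fermat.Agent.S16.Theta.Defs
import Fermat.Agent.S16.Theta.TriPoisson

/-!
# Gaussian Poisson summation for `GaussPair`

The three statements on `GaussPair` are deduced from the general theorem on `TriForm`
(`Fermat.Agent.S16.Theta.TriForm.poisson`).
-/

set_option autoImplicit false

namespace Fermat.Agent.S16.Theta

open Complex Real

lemma GaussPair.exists_triForm {n : ℕ} {Q Qd : (Fin n → ℝ) → ℝ} {D : ℝ}
    (h : GaussPair n Q Qd D) :
    ∃ F : TriForm n, F.Pos ∧ (∀ x : Fin n → ℝ, F.eval (fun i => (x i : ℂ)) = (Q x : ℂ)) ∧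
      (∀ c : Fin n → ℝ, F.dual (fun i => (c i : ℂ)) = (Qd c : ℂ)) ∧ F.det = D := by
  induction h with
  | zero =>
    exact ⟨.nil, trivial, fun _ => by simp [TriForm.eval], fun _ => by simp [TriForm.dual], rfl⟩
  | succ α hα u h ih =>
    obtain ⟨F, hF, he, hd, hdet⟩ := ih
    refine ⟨.cons α u F, ⟨hα, hF⟩, fun x => ?_, fun c => ?_, by simp [TriForm.det, hdet]⟩
    · simp only [TriForm.eval]
      rw [he (fun j => x j.succ)]
      push_cast
      ring
    · simp only [TriForm.dual]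
      have := hd (fun j => c j.succ - c 0 * u j)
      push_cast at this
      rw [this]
      push_cast
      ring

theorem GaussPair.summable {n : ℕ} {Q Qd : (Fin n → ℝ) → ℝ} {D : ℝ} (h : GaussPair n Q Qd D)
    {a : ℝ} (ha : 0 < a) (v : Fin n → ℝ) :
    Summable fun x : Fin n → ℤ => Real.exp (-a * Q (fun i => (x i : ℝ) + v i)) := by
  obtain ⟨F, hF, he, -, -⟩ := h.exists_triForm
  have ha' : 0 < (((a / π : ℝ)) : ℂ).re := by
    rw [Complex.ofReal_re]; positivity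
  have := (F.summable_eval hF ha' (fun i => (v i : ℂ)) 0).norm
  refine this.congr (fun x => ?_)
  have e := he (fun i => (x i : ℝ) + v i)
  push_cast at e
  rw [e, Complex.norm_exp]
  congr 1
  have hpi : (π : ℂ) ≠ 0 := by exact_mod_cast Real.pi_ne_zero
  have : -(π : ℂ) * ((a / π : ℝ) : ℂ) * (Q (fun i => (x i : ℝ) + v i) : ℂ) +
      2 * π * ∑ i, (0 : Fin n → ℂ) i * (x i : ℂ) =
      ((-a * Q (fun i => (x i : ℝ) + v i) : ℝ) : ℂ) := by
    push_cast
    simp only [Pi.zero_apply, zero_mul, Finset.sum_const_zero, mul_zero, add_zero]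
    field_simp
  rw [this, Complex.ofReal_re]

theorem GaussPair.summable_dual {n : ℕ} {Q Qd : (Fin n → ℝ) → ℝ} {D : ℝ}
    (h : GaussPair n Q Qd D) {a : ℝ} (ha : 0 < a) (w : Fin n → ℝ) :
    Summable fun x : Fin n → ℤ => Real.exp (-a * Qd (fun i => (x i : ℝ) + w i)) := by
  obtain ⟨F, hF, -, hd, -⟩ := h.exists_triForm
  have ha' : 0 < (((π / a : ℝ)) : ℂ).re := by
    rw [Complex.ofReal_re]; positivity
  have := (F.summable_dual hF ha' 0 (fun i => -I * (w i : ℂ))).norm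
  refine this.congr (fun x => ?_)
  have e := hd (fun i => (x i : ℝ) + w i)
  push_cast at e
  have e' : (fun i => (x i : ℂ) + I * (-I * (w i : ℂ))) = fun i => (x i : ℂ) + (w i : ℂ) := by
    funext i
    have : I * (-I * (w i : ℂ)) = -(I ^ 2) * (w i : ℂ) := by ring
    rw [this, Complex.I_sq]
    ring
  rw [e', e, Complex.norm_exp]
  congr 1
  have hpi : (π : ℂ) ≠ 0 := by exact_mod_cast Real.pi_ne_zero
  have ha0 : (a : ℂ) ≠ 0 := by exact_mod_cast ha.ne'
  have : -(π : ℂ) / ((π / a : ℝ) : ℂ) * (Qd (fun i => (x i : ℝ) + w i) : ℂ) +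
      2 * π * I * ∑ i, ((x i : ℂ) + I * (-I * (w i : ℂ))) * (0 : Fin n → ℂ) i =
      ((-a * Qd (fun i => (x i : ℝ) + w i) : ℝ) : ℂ) := by
    push_cast
    simp only [Pi.zero_apply, mul_zero, Finset.sum_const_zero, add_zero]
    field_simp
  rw [this, Complex.ofReal_re]

theorem GaussPair.poisson {n : ℕ} {Q Qd : (Fin n → ℝ) → ℝ} {D : ℝ} (h : GaussPair n Q Qd D)
    {a : ℂ} (ha : 0 < a.re) (v w : Fin n → ℝ) :
    ∑' x : Fin n → ℤ, cexp (-π * a * (Q (fun i => (x i : ℝ) + v i) : ℝ)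
        + 2 * π * I * ∑ i, (w i : ℂ) * ((x i : ℂ) + (v i : ℂ))) =
      (1 / a ^ (1 / 2 : ℂ)) ^ n / (√D : ℝ) *
        ∑' ξ : Fin n → ℤ, cexp (-π / a * (Qd (fun i => (ξ i : ℝ) + w i) : ℝ)
          - 2 * π * I * ∑ i, (ξ i : ℂ) * (v i : ℂ)) := by
  obtain ⟨F, hF, he, hd, hdet⟩ := h.exists_triForm
  have ha0 : a ≠ 0 := by rintro rfl; simp at ha
  have key := F.poisson hF ha (fun i => (v i : ℂ)) (fun i => I * (w i : ℂ))
  have eL : ∀ x : Fin n → ℤ, cexp (-π * a * (Q (fun i => (x i : ℝ) + v i) : ℝ)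
        + 2 * π * I * ∑ i, (w i : ℂ) * ((x i : ℂ) + (v i : ℂ))) =
      cexp (2 * π * I * ∑ i, (w i : ℂ) * (v i : ℂ)) *
        cexp (-π * a * F.eval (fun i => (x i : ℂ) + (v i : ℂ)) +
          2 * π * ∑ i, (I * (w i : ℂ)) * (x i : ℂ)) := by
    intro x
    have e := he (fun i => (x i : ℝ) + v i)
    push_cast at e
    rw [e, ← Complex.exp_add]
    congr 1
    simp only [mul_add, Finset.sum_add_distrib, mul_assoc, ← Finset.mul_sum]
    ring
  have eR : ∀ ξ : Fin n → ℤ, cexp (-π / a * (Qd (fun i => (ξ i : ℝ) + w i) : ℝ)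
          - 2 * π * I * ∑ i, (ξ i : ℂ) * (v i : ℂ)) =
      cexp (2 * π * I * ∑ i, (w i : ℂ) * (v i : ℂ)) *
        (fun η : Fin n → ℤ => cexp (-π / a * F.dual (fun i => (η i : ℂ) + I * (I * (w i : ℂ))) +
          2 * π * I * ∑ i, ((η i : ℂ) + I * (I * (w i : ℂ))) * (v i : ℂ))) (Equiv.neg _ ξ) := by
    intro ξ
    have e := hd (fun i => (ξ i : ℝ) + w i)
    push_cast at e
    have e' : ∀ i, (((Equiv.neg (Fin n → ℤ) ξ) i : ℤ) : ℂ) + I * (I * (w i : ℂ)) =
        -((ξ i : ℂ) + (w i : ℂ)) := by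
      intro i
      have : I * (I * (w i : ℂ)) = (I ^ 2) * (w i : ℂ) := by ring
      rw [this, Complex.I_sq]
      simp
      ring
    simp only [e']
    rw [TriForm.dual_neg F (fun i => (ξ i : ℂ) + (w i : ℂ)), e, ← Complex.exp_add]
    congr 1
    simp only [neg_mul, add_mul, Finset.sum_neg_distrib, Finset.sum_add_distrib]
    ring
  simp_rw [eL, eR]
  rw [tsum_mul_left, tsum_mul_left, key,
    (Equiv.neg (Fin n → ℤ)).tsum_eq (fun η : Fin n → ℤ =>
      cexp (-π / a * F.dual (fun i => (η i : ℂ) + I * (I * (w i : ℂ))) +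
          2 * π * I * ∑ i, ((η i : ℂ) + I * (I * (w i : ℂ))) * (v i : ℂ))),
    TriForm.nrm_eq F hF ha0, hdet]
  simp only [one_div, inv_pow, mul_inv]
  ring

end Fermat.Agent.S16.Theta
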