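import Fermat.Agent.S16.Theta.SlashCore
import Fermat.Agent.S16.Theta.Trans
import Fermat.Agent.S16.Theta.Rep
import Fermat.Agent.S16.Theta.Gen
import Fermat.Agent.S16.Theta.Cosets

/-!
# S16, theta part: slash invariance and behaviour at the cusps

Instantiation of `SlashCore.lean` with the facts proved in the other files of the theta block.
(`thetaC_add_one` is in `SlashCore.lean`.)
-/

namespace Fermat.Agent.S16.Theta

open Complex Real
open UpperHalfPlane hiding I
open scoped MatrixGroups ModularForm Manifold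

variable {p : ℕ}

theorem theta_slash_of_mem [Fact p.Prime] (hp2 : p ≠ 2) (D : Data p) (γ : SL(2, ℤ))
    (hγ : γ ∈ CongruenceSubgroup.Gamma0 p) : theta D ∣[(2 : ℤ)] γ = theta D :=
  Slash.slash_of_mem D (thetaC_trans hp2 D) Gamma0_le_of_mem γ hγ

theorem theta_slash_S (D : Data p) (hp : 0 < p) :
    theta D ∣[(2 : ℤ)] ModularGroup.S = fun τ : ℍ => -(1 / (p : ℂ)) * thetaDualC D ((τ : ℂ) / p) :=
  Slash.slash_S D (thetaC_S D hp)

theorem isBoundedAtImInfty_theta_slash [Fact p.Prime] (hp2 : p ≠ 2) (D : Data p) (γ : SL(2, ℤ)) :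
    IsBoundedAtImInfty (theta D ∣[(2 : ℤ)] γ) :=
  have hp : 0 < p := (Fact.out : p.Prime).pos
  Slash.isBoundedAtImInfty_slash D hp (theta_slash_of_mem hp2 D) (theta_slash_S D hp)
    exists_Gamma0_mul_S_T (hasSum_thetaC D hp) (hasSum_thetaDualC D hp) γ

end Fermat.Agent.S16.Theta
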