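import Fermat.Agent.S16.Theta.Defs

/-!
# S16, theta part: slash invariance and behaviour at the cusps (core)

All statements here take the facts proved in the other files of the theta block
(transformation law, inversion formula, generators, coset representatives, `q`-expansions)
as explicit hypotheses, so this file depends only on `Defs`.
`Slash.lean` instantiates them.
-/

namespace Fermat.Agent.S16.Theta

open Complex Real
open UpperHalfPlane hiding I
open scoped MatrixGroups ModularForm Manifold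

variable {p : ℕ}

theorem thetaC_add_one (D : Data p) (z : ℂ) : thetaC D (z + 1) = thetaC D z := by
  unfold thetaC
  congr 1
  funext x
  rw [mul_add, Complex.exp_add, mul_one]
  have h1 : cexp (2 * π * I * (D.q x : ℂ)) = 1 := by
    rw [show 2 * π * I * (D.q x : ℂ) = (D.q x : ℂ) * (2 * π * I) by ring]
    exact Complex.exp_int_mul_two_pi_mul_I _
  rw [h1, mul_one]

namespace Slash

/-- The stabiliser of a function under the weight `k` slash action of `SL(2, ℤ)`. -/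
def stab (k : ℤ) (f : ℍ → ℂ) : Subgroup SL(2, ℤ) where
  carrier := {γ | f ∣[k] γ = f}
  mul_mem' := by
    intro a b ha hb
    change f ∣[k] a = f at ha
    change f ∣[k] b = f at hb
    change f ∣[k] (a * b) = f
    rw [SlashAction.slash_mul, ha, hb]
  one_mem' := SlashAction.slash_one k f
  inv_mem' := by
    intro a ha
    change f ∣[k] a = f at ha
    change f ∣[k] a⁻¹ = f
    conv_lhs => rw [← ha]
    rw [← SlashAction.slash_mul, mul_inv_cancel]
    exact SlashAction.slash_one k f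

lemma mem_stab {k : ℤ} {f : ℍ → ℂ} {γ : SL(2, ℤ)} : γ ∈ stab k f ↔ f ∣[k] γ = f := Iff.rfl

lemma T_mem_stab (D : Data p) : ModularGroup.T ∈ stab 2 (theta D) := by
  rw [mem_stab]
  funext τ
  rw [ModularForm.SL_slash_apply, UpperHalfPlane.modular_T_smul]
  have hden : denom (ModularGroup.T : SL(2, ℤ)) τ = 1 := by
    rw [ModularGroup.denom_apply, ModularGroup.coe_T]
    simp
  rw [hden]
  simp only [theta, UpperHalfPlane.coe_vadd, one_zpow, mul_one]
  rw [add_comm]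
  simpa using thetaC_add_one D (τ : ℂ)

lemma neg_one_mem_stab (D : Data p) : (-1 : SL(2, ℤ)) ∈ stab 2 (theta D) := by
  rw [mem_stab]
  funext τ
  rw [ModularForm.SL_slash_apply]
  have hsm : (-1 : SL(2, ℤ)) • τ = τ := by
    ext
    rw [UpperHalfPlane.coe_specialLinearGroup_apply]
    simp
  have hden : denom ((-1 : SL(2, ℤ)) : SL(2, ℤ)) τ = -1 := by
    simp [denom]
  rw [hsm, hden]
  norm_num

lemma mem_stab_of_lower_left (D : Data p)
    (htrans : ∀ a b d : ℤ, a * d - b * p = 1 → ∀ τ : ℂ, 0 < τ.im →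
      thetaC D ((a * τ + b) / (p * τ + d)) = (p * τ + d) ^ 2 * thetaC D τ)
    (γ : SL(2, ℤ)) (hγ : γ 1 0 = p) : γ ∈ stab 2 (theta D) := by
  rw [mem_stab]
  funext τ
  rw [ModularForm.SL_slash_apply]
  have hdet : γ 0 0 * γ 1 1 - γ 0 1 * p = 1 := by
    have := γ.det_coe
    rw [Matrix.det_fin_two, hγ] at this
    exact this
  have h := htrans (γ 0 0) (γ 0 1) (γ 1 1) hdet (τ : ℂ) τ.im_pos
  have hden : denom γ τ = (p : ℂ) * τ + (γ 1 1 : ℂ) := by
    simp [denom, hγ]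
  have hne : (p : ℂ) * τ + (γ 1 1 : ℂ) ≠ 0 := by
    rw [← hden]; exact denom_ne_zero _ τ
  have hsm : ((γ • τ : ℍ) : ℂ) = ((γ 0 0 : ℂ) * τ + (γ 0 1 : ℂ)) / ((p : ℂ) * τ + (γ 1 1 : ℂ)) := by
    rw [UpperHalfPlane.coe_specialLinearGroup_apply]
    simp [hγ]
  rw [hden]
  simp only [theta]
  rw [hsm, h, zpow_neg, mul_comm, ← mul_assoc]
  rw [show ((p : ℂ) * τ + (γ 1 1 : ℂ)) ^ (2 : ℤ) = ((p : ℂ) * τ + (γ 1 1 : ℂ)) ^ 2 by norm_cast]
  rw [inv_mul_cancel₀ (pow_ne_zero 2 hne), one_mul]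

/-- Invariance under `Γ₀(p)`, from the transformation law and the generation statement. -/
theorem slash_of_mem (D : Data p)
    (htrans : ∀ a b d : ℤ, a * d - b * p = 1 → ∀ τ : ℂ, 0 < τ.im →
      thetaC D ((a * τ + b) / (p * τ + d)) = (p * τ + d) ^ 2 * thetaC D τ)
    (hgen : ∀ H : Subgroup SL(2, ℤ), ModularGroup.T ∈ H → -1 ∈ H →
      (∀ γ : SL(2, ℤ), γ 1 0 = p → γ ∈ H) → CongruenceSubgroup.Gamma0 p ≤ H)
    (γ : SL(2, ℤ)) (hγ : γ ∈ CongruenceSubgroup.Gamma0 p) : theta D ∣[(2 : ℤ)] γ = theta D :=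
  mem_stab.1 (hgen _ (T_mem_stab D) (neg_one_mem_stab D) (mem_stab_of_lower_left D htrans) hγ)

/-- The action of `S`, from the inversion formula. -/
theorem slash_S (D : Data p)
    (hS : ∀ τ : ℂ, 0 < τ.im → thetaC D (-1 / τ) = -τ ^ 2 / p * thetaDualC D (τ / p)) :
    theta D ∣[(2 : ℤ)] ModularGroup.S =
      fun τ : ℍ => -(1 / (p : ℂ)) * thetaDualC D ((τ : ℂ) / p) := by
  funext τ
  rw [ModularForm.SL_slash_apply, UpperHalfPlane.modular_S_smul]
  have hden : denom (ModularGroup.S : SL(2, ℤ)) τ = τ := ModularGroup.denom_S τ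
  have hne : (τ : ℂ) ≠ 0 := UpperHalfPlane.ne_zero τ
  rw [hden]
  simp only [theta]
  rw [show (-(τ : ℂ))⁻¹ = -1 / (τ : ℂ) by rw [inv_neg, neg_div, one_div], hS _ τ.im_pos, zpow_neg]
  rw [show (τ : ℂ) ^ (2 : ℤ) = (τ : ℂ) ^ 2 by norm_cast]
  field_simp

lemma isBoundedAtImInfty_theta (D : Data p)
    (hsum : ∀ z : ℂ, 0 < z.im →
      HasSum (fun m : ℕ => (D.rep m : ℂ) * cexp (2 * π * I * z) ^ m) (thetaC D z)) :
    IsBoundedAtImInfty (theta D) := by
  refine UpperHalfPlane.isBoundedAtImInfty_of_hasSum_qExpansion (h := 1)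
    (c := fun m => (D.rep m : ℂ)) one_pos fun τ => ?_
  have h := hsum (τ : ℂ) τ.im_pos
  simpa [Function.Periodic.qParam, theta, smul_eq_mul] using h

lemma isBoundedAtImInfty_dual (D : Data p) (hp : 0 < p)
    (hsum : ∀ z : ℂ, 0 < z.im →
      HasSum (fun m : ℕ => (D.repd m : ℂ) * cexp (2 * π * I * z) ^ m) (thetaDualC D z)) :
    IsBoundedAtImInfty (fun τ : ℍ => -(1 / (p : ℂ)) * thetaDualC D ((τ : ℂ) / p)) := by
  have hp' : (0 : ℝ) < p := by exact_mod_cast hp
  refine UpperHalfPlane.isBoundedAtImInfty_of_hasSum_qExpansion (h := (p : ℝ))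
    (c := fun m => -(1 / (p : ℂ)) * (D.repd m : ℂ)) hp' fun τ => ?_
  have him : 0 < ((τ : ℂ) / p).im := by
    rw [show ((τ : ℂ) / p) = (τ : ℂ) / ((p : ℝ) : ℂ) by simp, Complex.div_ofReal_im]
    exact div_pos τ.im_pos hp'
  have h := (hsum ((τ : ℂ) / p) him).mul_left (-(1 / (p : ℂ)))
  have hq : Function.Periodic.qParam (p : ℝ) (τ : ℂ) = cexp (2 * π * I * ((τ : ℂ) / p)) := by
    simp only [Function.Periodic.qParam]
    congr 1
    push_cast
    ring
  simp only [smul_eq_mul, hq]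
  simpa [mul_assoc] using h

/-- Boundedness of all `SL(2, ℤ)`-translates at `i∞`. -/
theorem isBoundedAtImInfty_slash (D : Data p) (hp : 0 < p)
    (hinv : ∀ γ : SL(2, ℤ), γ ∈ CongruenceSubgroup.Gamma0 p → theta D ∣[(2 : ℤ)] γ = theta D)
    (hS : theta D ∣[(2 : ℤ)] ModularGroup.S =
      fun τ : ℍ => -(1 / (p : ℂ)) * thetaDualC D ((τ : ℂ) / p))
    (hcos : ∀ γ : SL(2, ℤ), γ ∉ CongruenceSubgroup.Gamma0 p →
      ∃ γ₀ ∈ CongruenceSubgroup.Gamma0 p, ∃ j : ℤ, γ = γ₀ * ModularGroup.S * ModularGroup.T ^ j)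
    (hsum : ∀ z : ℂ, 0 < z.im →
      HasSum (fun m : ℕ => (D.rep m : ℂ) * cexp (2 * π * I * z) ^ m) (thetaC D z))
    (hsumd : ∀ z : ℂ, 0 < z.im →
      HasSum (fun m : ℕ => (D.repd m : ℂ) * cexp (2 * π * I * z) ^ m) (thetaDualC D z))
    (γ : SL(2, ℤ)) : IsBoundedAtImInfty (theta D ∣[(2 : ℤ)] γ) := by
  by_cases hγ : γ ∈ CongruenceSubgroup.Gamma0 p
  · rw [hinv γ hγ]
    exact isBoundedAtImInfty_theta D hsum
  · obtain ⟨γ₀, hγ₀, j, rfl⟩ := hcos γ hγ
    rw [SlashAction.slash_mul, SlashAction.slash_mul, hinv γ₀ hγ₀, hS, ModularForm.SL_slash]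
    refine IsBoundedAtImInfty.slash 2 ?_ (isBoundedAtImInfty_dual D hp hsumd)
    have h10 : (ModularGroup.T ^ j : SL(2, ℤ)) 1 0 = 0 := by
      rw [ModularGroup.coe_T_zpow]
      simp
    simp [-map_zpow, h10]

end Slash

end Fermat.Agent.S16.Theta
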